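/-
Programme TW (S56), brick C3-T4b (Dirichlet-Herbrand mod p), helper5.  Adapter (B): the set `T_S`
of primes of `F` above a finite set `S` of rational primes; bridge to the `S`-units
`(Interface23.divT S F).ker` of PT/GLOB; the hom form of Dirichlet-Herbrand for any realisation
`u` of the `σ`-action on `𝔽_p ⊗ (divT S F).ker`, split over the archimedean places and the
primes above each `q ∈ S`.
-/
import Mathlib
import Fermat.Agent.PT.GLOB.UnitsBridge24
import Fermat.Agent.TW.DirHerb5.AdaptersHom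

set_option autoImplicit false
set_option linter.unusedSectionVars false

open NumberField NumberField.InfinitePlace IsDedekindDomain HeightOneSpectrum Module TensorProduct
open Fermat.Agent.TW.DirHerb5.GaloisAction Fermat.Agent.TW.DirHerb5.AbstractDH
open Fermat.Agent.TW.DirHerb5.SemisimpleConj Fermat.Agent.TW.DirHerb5.LatticeCharpoly
open Fermat.Agent.TW.DirHerb5.HomCalc Fermat.Agent.TW.DirHerb5.AdaptersHom
open Fermat.Agent.PT.GLOB.UnitsBridge24 Fermat.Agent.PT.GLOB.Interface23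
open scoped Pointwise

namespace Fermat.Agent.TW.DirHerb5.AdaptersPrimes

variable {k : Type*} [Field k] (F : Type*) [Field F] [NumberField F] [Algebra k F]
  (S : Finset Nat.Primes)

/-! ### The set `T_S` -/

/-- The primes of `F` above the rational primes in `S`, as a set. -/
def TS : Set (HeightOneSpectrum (𝓞 F)) := ↑(primesOverT S F)

theorem mem_TS (v : HeightOneSpectrum (𝓞 F)) :
    v ∈ TS F S ↔ ∃ q ∈ S, ((q : ℕ) : 𝓞 F) ∈ v.asIdeal := by
  unfold TS
  rw [Finset.mem_coe, mem_primesOverT]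
  simp only [Int.cast_natCast]

instance finite_TS : Finite (TS F S) := by
  unfold TS
  infer_instance

theorem natCast_mem_smulP_iff (σ : F ≃ₐ[k] F) (v : HeightOneSpectrum (𝓞 F)) (n : ℕ) :
    (n : 𝓞 F) ∈ (smulP F σ v).asIdeal ↔ (n : 𝓞 F) ∈ v.asIdeal := by
  rw [smulP_asIdeal, Ideal.mem_pointwise_smul_iff_inv_smul_mem]
  have h : σ⁻¹ • (n : 𝓞 F) = (n : 𝓞 F) :=
    map_natCast (MulSemiringAction.toRingHom (F ≃ₐ[k] F) (𝓞 F) σ⁻¹) n
  rw [h]

theorem stable_TS (σ : F ≃ₐ[k] F) : ∀ v ∈ TS F S, smulP F σ v ∈ TS F S := by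
  intro v hv
  rw [mem_TS] at hv ⊢
  obtain ⟨q, hq, hmem⟩ := hv
  exact ⟨q, hq, (natCast_mem_smulP_iff F σ v q).mpr hmem⟩

/-- The `T_S`-units are the `S`-units of `PT/GLOB/Interface23`. -/
theorem unit_TS : (TS F S).unit F = (divT S F).ker := (ker_divT S F).symm

/-! ### Bridge to any realisation of the action on `𝔽_p ⊗ (divT S F).ker` -/

section Bridge

variable (p : ℕ) [Fact p.Prime]

/-- The identification `Additive (T_S.unit F) ≃ Additive (divT S F).ker`. -/
noncomputable def trUnits : Additive ((TS F S).unit F) ≃ₗ[ℤ] Additive (divT S F).ker :=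
  (MulEquiv.toAdditive (MulEquiv.subgroupCongr (unit_TS F S))).toIntLinearEquiv

theorem coe_trUnits (x : Additive ((TS F S).unit F)) :
    ((((trUnits F S x).toMul : (divT S F).ker) : Fˣ) : F) =
      (((x.toMul : (TS F S).unit F) : Fˣ) : F) := rfl

theorem coe_trUnits_symm (x : Additive (divT S F).ker) :
    (((((trUnits F S).symm x).toMul : (TS F S).unit F) : Fˣ) : F) =
      (((x.toMul : (divT S F).ker) : Fˣ) : F) := rfl

/-- Any endomorphism `u` of `𝔽_p ⊗ (divT S F).ker` given on pure tensors by `σ` is conjugate to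
the base change of `unitLin`. -/
theorem conj_of_tmul (σ : F ≃ₐ[k] F) (g : (divT S F).ker → (divT S F).ker)
    (hg : ∀ x : (divT S F).ker, (((g x : (divT S F).ker) : Fˣ) : F) = σ ((x : Fˣ) : F))
    (u : End (ZMod p) (ZMod p ⊗[ℤ] Additive (divT S F).ker))
    (hu : ∀ (a : ZMod p) (x : Additive (divT S F).ker),
      u (a ⊗ₜ[ℤ] x) = a ⊗ₜ[ℤ] Additive.ofMul (g (Additive.toMul x))) :
    Conj u ((unitLin F σ (TS F S) (stable_TS F S σ)).baseChange (ZMod p)) := by
  refine ⟨(LinearEquiv.baseChange ℤ (ZMod p) _ _ (trUnits F S)).symm, fun y => ?_⟩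
  induction y using TensorProduct.induction_on with
  | zero => simp
  | tmul a x =>
    rw [hu, LinearEquiv.baseChange_symm_tmul, LinearEquiv.baseChange_symm_tmul,
      LinearMap.baseChange_tmul]
    congr 1
    apply Additive.toMul.injective
    apply Subtype.ext
    apply Units.ext
    rw [coe_trUnits_symm, coe_unitLin, coe_trUnits_symm]
    exact hg _
  | add y y' hy hy' => rw [map_add, map_add, hy, hy', map_add, map_add]

end Bridge

/-! ### The primes above one rational prime -/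

section Pq

/-- The primes of `F` above the rational prime `q`. -/
def Pq (q : ℕ) : Type _ := {P : HeightOneSpectrum (𝓞 F) // (q : 𝓞 F) ∈ P.asIdeal}

/-- The permutation of the primes above `q` induced by `σ`. -/
noncomputable def permQ (σ : F ≃ₐ[k] F) (q : ℕ) : Equiv.Perm (Pq F q) where
  toFun P := ⟨smulP F σ P.1, (natCast_mem_smulP_iff F σ P.1 q).mpr P.2⟩
  invFun P := ⟨smulP F σ⁻¹ P.1, (natCast_mem_smulP_iff F σ⁻¹ P.1 q).mpr P.2⟩
  left_inv P := Subtype.ext (smulP_inv_smulP F σ P.1)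
  right_inv P := Subtype.ext (smulP_smulP_inv F σ P.1)

theorem permQ_apply (σ : F ≃ₐ[k] F) (q : ℕ) (P : Pq F q) :
    (permQ F σ q P).1 = smulP F σ P.1 := rfl

theorem prime_unique (P : HeightOneSpectrum (𝓞 F)) {q q' : ℕ} (hq : q.Prime) (hq' : q'.Prime)
    (h : (q : 𝓞 F) ∈ P.asIdeal) (h' : (q' : 𝓞 F) ∈ P.asIdeal) : q = q' := by
  by_contra hne
  have hcop : IsCoprime (q : ℤ) (q' : ℤ) :=
    Nat.isCoprime_iff_coprime.mpr ((Nat.coprime_primes hq hq').mpr hne)
  obtain ⟨a, b, hab⟩ := hcop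
  have h1 : (1 : 𝓞 F) ∈ P.asIdeal := by
    have : ((a * q + b * q' : ℤ) : 𝓞 F) ∈ P.asIdeal := by
      push_cast
      exact Ideal.add_mem _ (Ideal.mul_mem_left _ _ h) (Ideal.mul_mem_left _ _ h')
    rw [hab, Int.cast_one] at this
    exact this
  exact P.isPrime.ne_top ((Ideal.eq_top_iff_one _).mpr h1)

instance finite_Pq (q : Nat.Primes) : Finite (Pq F (q : ℕ)) := by
  have : Finite (TS F {q}) := finite_TS F {q}
  refine Finite.of_injective (fun P : Pq F (q : ℕ) => (⟨P.1, (mem_TS F {q} P.1).mpr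
    ⟨q, Finset.mem_singleton_self q, P.2⟩⟩ : TS F {q})) ?_
  intro P P' h
  exact Subtype.ext (congrArg (fun x : TS F {q} => x.1) h)

theorem exists_q (v : TS F S) : ∃ q : S, ((q : Nat.Primes) : ℕ) ∈ {n : ℕ | (n : 𝓞 F) ∈ v.1.asIdeal} := by
  obtain ⟨q, hq, hmem⟩ := (mem_TS F S v.1).mp v.2
  exact ⟨⟨q, hq⟩, hmem⟩

/-- The rational prime of `S` below a prime of `T_S`. -/
noncomputable def qOf (v : TS F S) : S := (exists_q F S v).choose

theorem qOf_spec (v : TS F S) : (((qOf F S v : Nat.Primes) : ℕ) : 𝓞 F) ∈ v.1.asIdeal :=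
  (exists_q F S v).choose_spec

theorem qOf_eq (v : TS F S) (q : S) (h : (((q : Nat.Primes) : ℕ) : 𝓞 F) ∈ v.1.asIdeal) :
    qOf F S v = q := by
  apply Subtype.ext
  apply Subtype.ext
  exact prime_unique F v.1 (qOf F S v).1.2 q.1.2 (qOf_spec F S v) h

theorem sigma_ext5 {q q' : S} (P : Pq F ((q : Nat.Primes) : ℕ)) (P' : Pq F ((q' : Nat.Primes) : ℕ))
    (h1 : q = q') (h2 : P.1 = P'.1) :
    (⟨q, P⟩ : Σ q : S, Pq F ((q : Nat.Primes) : ℕ)) = ⟨q', P'⟩ := by
  subst h1
  congr 1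
  exact Subtype.ext h2

/-- `T_S` is the disjoint union of the sets of primes above `q ∈ S`. -/
noncomputable def sigmaEquiv : TS F S ≃ Σ q : S, Pq F ((q : Nat.Primes) : ℕ) where
  toFun v := ⟨qOf F S v, ⟨v.1, qOf_spec F S v⟩⟩
  invFun x := ⟨x.2.1, (mem_TS F S x.2.1).mpr ⟨x.1.1, x.1.2, x.2.2⟩⟩
  left_inv v := Subtype.ext rfl
  right_inv x := by
    obtain ⟨q, P⟩ := x
    exact sigma_ext5 F S _ _ (qOf_eq F S _ q P.2) rfl

theorem sigmaEquiv_perm (σ : F ≃ₐ[k] F) (v : TS F S) :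
    sigmaEquiv F S (Equiv.ofBijective _ (placeMapT_bijective F σ (TS F S) (stable_TS F S σ)) v) =
      ⟨(sigmaEquiv F S v).1,
        permQ F σ (((sigmaEquiv F S v).1 : Nat.Primes) : ℕ) (sigmaEquiv F S v).2⟩ := by
  refine sigma_ext5 F S _ _ (qOf_eq F S _ _ ?_) rfl
  exact (natCast_mem_smulP_iff F σ v.1 _).mpr (qOf_spec F S v)

end Pq

/-! ### The final formula -/

/-- **Dirichlet-Herbrand, hom form, for the `S`-units of PT/GLOB**, with the permutation term
split over the archimedean places and the primes above each `q ∈ S`. -/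
theorem hom_formula_divT (p : ℕ) [Fact p.Prime] (σ : F ≃ₐ[k] F) {m : ℕ} (hm : ¬ p ∣ m)
    (hσ : σ ^ m = 1) (g : (divT S F).ker → (divT S F).ker)
    (hg : ∀ x : (divT S F).ker, (((g x : (divT S F).ker) : Fˣ) : F) = σ ((x : Fˣ) : F))
    (u : End (ZMod p) (ZMod p ⊗[ℤ] Additive (divT S F).ker))
    (hu : ∀ (a : ZMod p) (x : Additive (divT S F).ker),
      u (a ⊗ₜ[ℤ] x) = a ⊗ₜ[ℤ] Additive.ofMul (g (Additive.toMul x)))
    {ζ : F} (hζ : IsPrimitiveRoot ζ p) (ω : ℕ) (hω : σ ζ = ζ ^ ω)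
    {N : Type*} [AddCommGroup N] [Module (ZMod p) N] [FiniteDimensional (ZMod p) N]
    (a : End (ZMod p) N) :
    hom a u + finrank (ZMod p) (LinearMap.ker (a - 1)) =
      finrank (ZMod p) (LinearMap.ker (a - (ω : ZMod p) • (1 : End (ZMod p) N))) +
        (finrank (ZMod p) (twFix (MulAction.toPerm σ : Equiv.Perm (InfinitePlace F)) a) +
          ∑ q : S, finrank (ZMod p) (twFix (permQ F σ ((q : Nat.Primes) : ℕ)) a)) := by
  rw [hom_eq_of_conj a (conj_of_tmul F S p σ g hg u hu),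
    hom_formula F p σ hm hσ (TS F S) (stable_TS F S σ) hζ ω hω a,
    finrank_twFix_placePerm F σ (TS F S) (stable_TS F S σ) a,
    finrank_twFix_sigma _ (fun q : S => permQ F σ ((q : Nat.Primes) : ℕ)) (sigmaEquiv F S)
      (sigmaEquiv_perm F S σ) a]

end Fermat.Agent.TW.DirHerb5.AdaptersPrimes
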