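/-
Programme TW (S56), brick C3-T4b (Dirichlet-Herbrand mod p), helper5.

Lattice input: if a free `ℤ`-module `Λ` with an endomorphism `s` maps equivariantly to a real
permutation module `ℝ^P` such that `ι(Λ)` together with one fixed vector spans `ℝ^P`, and
`rank Λ + 1 = |P|`, then `charpoly s * (X - 1)` is the characteristic polynomial of the permutation.
-/
import Mathlib

set_option autoImplicit false

open Polynomial Module

namespace Fermat.Agent.TW.DirHerb5.LatticeCharpoly

/-! ### Permutation endomorphisms -/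

section Perm

variable (R : Type*) [CommRing R] {P : Type*} (π : Equiv.Perm P)

/-- The endomorphism of `P → R` permuting the coordinates according to `π`:
`(permEnd R π x) (π v) = x v`. -/
def permEnd : (P → R) →ₗ[R] (P → R) := LinearMap.funLeft R R π.symm

theorem permEnd_apply (x : P → R) (v : P) : permEnd R π x v = x (π.symm v) := rfl

theorem permEnd_apply_perm (x : P → R) (v : P) : permEnd R π x (π v) = x v := by
  rw [permEnd_apply, Equiv.symm_apply_apply]

theorem permEnd_one : permEnd R (1 : Equiv.Perm P) = 1 := by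
  ext x v
  rfl

theorem permEnd_mul (π₁ π₂ : Equiv.Perm P) :
    permEnd R (π₁ * π₂) = permEnd R π₁ * permEnd R π₂ := by
  apply LinearMap.ext
  intro x
  funext v
  rfl

theorem permEnd_pow (n : ℕ) : permEnd R (π ^ n) = permEnd R π ^ n := by
  induction n with
  | zero => rw [pow_zero, pow_zero, permEnd_one]
  | succ n ih => rw [pow_succ, pow_succ, permEnd_mul, ih]

theorem permEnd_pow_eq_one {m : ℕ} (h : π ^ m = 1) : permEnd R π ^ m = 1 := by
  rw [← permEnd_pow, h, permEnd_one]

variable [Fintype P] [DecidableEq P]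

theorem toMatrix'_permEnd :
    LinearMap.toMatrix' (permEnd R π) =
      Matrix.of fun i j => if π.symm i = j then (1 : R) else 0 := by
  ext i j
  rw [LinearMap.toMatrix'_apply, permEnd_apply, Pi.single_apply, Matrix.of_apply]

theorem charpoly_permEnd_map {S : Type*} [CommRing S] (f : R →+* S) :
    (permEnd R π).charpoly.map f = (permEnd S π).charpoly := by
  rw [← LinearMap.charpoly_toMatrix (permEnd R π) (Pi.basisFun R P),
    ← LinearMap.charpoly_toMatrix (permEnd S π) (Pi.basisFun S P),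
    LinearMap.toMatrix_eq_toMatrix', LinearMap.toMatrix_eq_toMatrix', ← Matrix.charpoly_map,
    toMatrix'_permEnd, toMatrix'_permEnd]
  congr 1
  ext i j
  simp only [Matrix.map_apply, Matrix.of_apply]
  split_ifs <;> simp

end Perm

/-! ### Comparing characteristic polynomials over `ℤ` and `ℝ` -/

section Compare

variable {Λ E : Type*} [AddCommGroup Λ] [AddCommGroup E] [Module ℝ E]

theorem repr_map_of_basis {I : Type*} [Fintype I] (b : Basis I ℤ Λ) (c : Basis I ℝ E)
    (ι : Λ →+ E) (hbc : ∀ i, ι (b i) = c i) (x : Λ) (i : I) :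
    c.repr (ι x) i = ((b.repr x i : ℤ) : ℝ) := by
  have h : ι x = ∑ i, ((b.repr x i : ℤ) : ℝ) • c i := by
    conv_lhs => rw [← b.sum_repr x]
    rw [map_sum]
    refine Finset.sum_congr rfl fun i _ => ?_
    rw [map_zsmul, hbc, Int.cast_smul_eq_zsmul]
  rw [h, c.repr_sum_self]

theorem charpoly_map_eq_of_basis [Module.Free ℤ Λ] [Module.Finite ℤ Λ] [Module.Finite ℝ E]
    {I : Type*} [Fintype I] [DecidableEq I] (b : Basis I ℤ Λ)
    (c : Basis I ℝ E) (ι : Λ →+ E) (hbc : ∀ i, ι (b i) = c i) (s : Λ →ₗ[ℤ] Λ) (S : E →ₗ[ℝ] E)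
    (h : ∀ x, ι (s x) = S (ι x)) : s.charpoly.map (Int.castRingHom ℝ) = S.charpoly := by
  rw [← LinearMap.charpoly_toMatrix s b, ← LinearMap.charpoly_toMatrix S c, ← Matrix.charpoly_map]
  congr 1
  ext i j
  simp only [Matrix.map_apply, LinearMap.toMatrix_apply, eq_intCast]
  rw [← hbc j, ← h, repr_map_of_basis b c ι hbc]

end Compare

/-! ### The lattice theorem -/

section Lattice

variable {Λ : Type*} [AddCommGroup Λ] [Module.Free ℤ Λ] [Module.Finite ℤ Λ]
  {P : Type*} [Fintype P]

theorem charpoly_mul_X_sub_one_eq (π : Equiv.Perm P) (s : Λ →ₗ[ℤ] Λ) (ι : Λ →+ (P → ℝ))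
    (z₀ : P → ℝ) (hz : ∀ v, z₀ (π v) = z₀ v) (heq : ∀ x v, ι (s x) (π v) = ι x v)
    (hrank : finrank ℤ Λ + 1 = Fintype.card P)
    (hspan : Submodule.span ℝ (Set.range ι) ⊔ Submodule.span ℝ {z₀} = ⊤) :
    s.charpoly * (X - 1) = (permEnd ℤ π).charpoly := by
  classical
  -- the extended lattice
  let sP : (Λ × ℤ) →ₗ[ℤ] (Λ × ℤ) := s.prodMap LinearMap.id
  let ιP : (Λ × ℤ) →+ (P → ℝ) :=
    AddMonoidHom.coprod ι ((zmultiplesHom (P → ℝ)) z₀)
  have hιP : ∀ x : Λ × ℤ, ιP x = ι x.1 + x.2 • z₀ := fun x => rfl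
  have hequiv : ∀ x, ιP (sP x) = permEnd ℝ π (ιP x) := by
    intro x
    funext w
    obtain ⟨v, rfl⟩ := π.surjective w
    rw [permEnd_apply_perm, hιP, hιP]
    simp only [sP, LinearMap.prodMap_apply, LinearMap.id_apply, Pi.add_apply, Pi.smul_apply,
      heq, hz]
  let b := Free.chooseBasis ℤ (Λ × ℤ)
  have hcard : Fintype.card (Free.ChooseBasisIndex ℤ (Λ × ℤ)) = finrank ℝ (P → ℝ) := by
    rw [← finrank_eq_card_chooseBasisIndex, finrank_prod, finrank_self, hrank,
      Module.finrank_fintype_fun_eq_card]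
  have hrange : ∀ x, ιP x ∈ Submodule.span ℝ (Set.range (ιP ∘ b)) := by
    intro x
    rw [← b.sum_repr x, map_sum]
    refine Submodule.sum_mem _ fun i _ => ?_
    rw [map_zsmul, ← Int.cast_smul_eq_zsmul ℝ]
    exact Submodule.smul_mem _ _ (Submodule.subset_span ⟨i, rfl⟩)
  have htop : ⊤ ≤ Submodule.span ℝ (Set.range (ιP ∘ b)) := by
    rw [← hspan, sup_le_iff, Submodule.span_le, Submodule.span_le]
    constructor
    · rintro _ ⟨x, rfl⟩
      have := hrange (x, 0)
      rwa [hιP, zero_smul, add_zero] at this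
    · rintro _ rfl
      have := hrange (0, 1)
      rwa [hιP, map_zero, zero_add, one_smul] at this
  let c : Basis (Free.ChooseBasisIndex ℤ (Λ × ℤ)) ℝ (P → ℝ) :=
    basisOfTopLeSpanOfCardEqFinrank (ιP ∘ b) htop hcard
  have hbc : ∀ i, ιP (b i) = c i := fun i => by
    rw [coe_basisOfTopLeSpanOfCardEqFinrank]; rfl
  have h1 := charpoly_map_eq_of_basis b c ιP hbc sP (permEnd ℝ π) hequiv
  rw [← charpoly_permEnd_map ℤ π (Int.castRingHom ℝ)] at h1
  have h2 := Polynomial.map_injective _ (RingHom.injective_int (Int.castRingHom ℝ)) h1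
  rw [← h2, LinearMap.charpoly_prodMap]
  congr 1
  have : (LinearMap.id : ℤ →ₗ[ℤ] ℤ) = 1 := rfl
  rw [this, LinearMap.charpoly_one, finrank_self, pow_one]

end Lattice

end Fermat.Agent.TW.DirHerb5.LatticeCharpoly
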