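/-
Programme TW (S56), brick C3-T4b (Dirichlet-Herbrand mod p), helper5.  Adapter (C), part 1:
"generator calculus" for the dimension of spaces of intertwiners

  `hom a b := finrank k {f : N →ₗ[k] Y | f ∘ₗ a = b ∘ₗ f}`,   `a : End k N`, `b : End k Y`:

* invariance under `Conj` in `b`, additivity over `prodMap` in `b`,
* `hom a (c • 1 : End k k) = finrank (ker (a - c • 1))`,
* `hom a (permEnd k π) = finrank (twFix π a)`, `twFix π a = {x : P → N | ∀ v, x (π v) = a (x v)}`.
-/
import Mathlib
import Fermat.Agent.TW.DirHerb5.SemisimpleConj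
import Fermat.Agent.TW.DirHerb5.LatticeCharpoly

set_option autoImplicit false
set_option linter.unusedSectionVars false

open Module
open Fermat.Agent.TW.DirHerb5.SemisimpleConj Fermat.Agent.TW.DirHerb5.LatticeCharpoly

namespace Fermat.Agent.TW.DirHerb5.HomCalc

variable {k : Type*} [Field k]

section Defs

variable {N Y : Type*} [AddCommGroup N] [Module k N] [AddCommGroup Y] [Module k Y]

/-- The space of intertwiners from `(N, a)` to `(Y, b)`. -/
def homSub (a : End k N) (b : End k Y) : Submodule k (N →ₗ[k] Y) where
  carrier := {f | f ∘ₗ a = b ∘ₗ f}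
  add_mem' {f g} hf hg := by
    rw [Set.mem_ofPred_eq] at hf hg ⊢
    rw [LinearMap.add_comp, LinearMap.comp_add, hf, hg]
  zero_mem' := by
    rw [Set.mem_ofPred_eq, LinearMap.zero_comp, LinearMap.comp_zero]
  smul_mem' c f hf := by
    rw [Set.mem_ofPred_eq] at hf ⊢
    rw [LinearMap.smul_comp, LinearMap.comp_smul, hf]

theorem mem_homSub {a : End k N} {b : End k Y} {f : N →ₗ[k] Y} :
    f ∈ homSub a b ↔ f ∘ₗ a = b ∘ₗ f := Iff.rfl

theorem mem_homSub_iff {a : End k N} {b : End k Y} {f : N →ₗ[k] Y} :
    f ∈ homSub a b ↔ ∀ n, f (a n) = b (f n) := by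
  rw [mem_homSub]
  constructor
  · intro h n
    exact LinearMap.congr_fun h n
  · intro h
    exact LinearMap.ext h

/-- The dimension of the space of intertwiners. -/
noncomputable def hom (a : End k N) (b : End k Y) : ℕ := finrank k (homSub a b)

end Defs

section Conj

variable {N Y Y' : Type*} [AddCommGroup N] [Module k N] [AddCommGroup Y] [Module k Y]
  [AddCommGroup Y'] [Module k Y']

/-- Intertwiner spaces only depend on the conjugacy class of the target. -/
def homSubCongr (a : End k N) {b : End k Y} {b' : End k Y'} (e : Y ≃ₗ[k] Y')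
    (he : ∀ y, e (b y) = b' (e y)) : homSub a b ≃ₗ[k] homSub a b' where
  toFun f := ⟨e.toLinearMap ∘ₗ f.1, by
    rw [mem_homSub_iff]
    intro n
    have := mem_homSub_iff.mp f.2 n
    simp only [LinearMap.comp_apply, LinearEquiv.coe_coe, this, he]⟩
  invFun g := ⟨e.symm.toLinearMap ∘ₗ g.1, by
    rw [mem_homSub_iff]
    intro n
    have := mem_homSub_iff.mp g.2 n
    simp only [LinearMap.comp_apply, LinearEquiv.coe_coe, this]
    apply e.injective
    rw [he, e.apply_symm_apply, e.apply_symm_apply]⟩
  map_add' f g := by
    apply Subtype.ext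
    simp [LinearMap.comp_add]
  map_smul' c f := by
    apply Subtype.ext
    simp [LinearMap.comp_smul]
  left_inv f := by
    apply Subtype.ext
    apply LinearMap.ext
    intro n
    simp
  right_inv g := by
    apply Subtype.ext
    apply LinearMap.ext
    intro n
    simp

theorem hom_eq_of_conj (a : End k N) {b : End k Y} {b' : End k Y'} (h : Conj b b') :
    hom a b = hom a b' := by
  obtain ⟨e, he⟩ := h
  exact LinearEquiv.finrank_eq (homSubCongr a e he)

end Conj

section Prod

variable {N Y Y' : Type*} [AddCommGroup N] [Module k N] [AddCommGroup Y] [Module k Y]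
  [AddCommGroup Y'] [Module k Y']

/-- Intertwiners into a product. -/
def homSubProd (a : End k N) (b : End k Y) (b' : End k Y') :
    homSub a (b.prodMap b') ≃ₗ[k] (homSub a b × homSub a b') where
  toFun f := (⟨LinearMap.fst k Y Y' ∘ₗ f.1, by
      rw [mem_homSub_iff]
      intro n
      have := mem_homSub_iff.mp f.2 n
      simp only [LinearMap.comp_apply, this, LinearMap.fst_apply, LinearMap.prodMap_apply]⟩,
    ⟨LinearMap.snd k Y Y' ∘ₗ f.1, by
      rw [mem_homSub_iff]
      intro n
      have := mem_homSub_iff.mp f.2 n
      simp only [LinearMap.comp_apply, this, LinearMap.snd_apply, LinearMap.prodMap_apply]⟩)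
  invFun g := ⟨g.1.1.prod g.2.1, by
    rw [mem_homSub_iff]
    intro n
    have h1 := mem_homSub_iff.mp g.1.2 n
    have h2 := mem_homSub_iff.mp g.2.2 n
    change (g.1.1 (a n), g.2.1 (a n)) = (b (g.1.1 n), b' (g.2.1 n))
    rw [h1, h2]⟩
  map_add' f g := by
    apply Prod.ext <;> apply Subtype.ext <;> simp [LinearMap.comp_add]
  map_smul' c f := by
    apply Prod.ext <;> apply Subtype.ext <;> simp [LinearMap.comp_smul]
  left_inv f := by
    apply Subtype.ext
    apply LinearMap.ext
    intro n
    simp
  right_inv g := by
    apply Prod.ext <;> apply Subtype.ext <;> apply LinearMap.ext <;> intro n <;> simp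

theorem hom_prodMap [FiniteDimensional k N] [FiniteDimensional k Y] [FiniteDimensional k Y']
    (a : End k N) (b : End k Y) (b' : End k Y') :
    hom a (b.prodMap b') = hom a b + hom a b' := by
  unfold hom
  rw [LinearEquiv.finrank_eq (homSubProd a b b'), Module.finrank_prod]

end Prod

/-! ### Kernels of transposes -/

section Transpose

variable {V : Type*} [AddCommGroup V] [Module k V] [FiniteDimensional k V]

theorem finrank_ker_dualMap (g : End k V) :
    finrank k (LinearMap.ker g.dualMap) = finrank k (LinearMap.ker g) := by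
  have h1 := LinearMap.finrank_range_add_finrank_ker g
  have h2 := LinearMap.finrank_range_add_finrank_ker g.dualMap
  have h3 := LinearMap.finrank_range_dualMap_eq_finrank_range g
  rw [Subspace.dual_finrank_eq] at h2
  omega

theorem dualMap_sub_smul_one (g : End k V) (c : k) :
    (g - c • (1 : End k V)).dualMap = g.dualMap - c • (1 : End k (Dual k V)) := by
  apply LinearMap.ext
  intro f
  apply LinearMap.ext
  intro x
  simp [LinearMap.dualMap_apply]

end Transpose

/-! ### Scalar targets -/

section Scalar

variable {N : Type*} [AddCommGroup N] [Module k N] [FiniteDimensional k N]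

theorem homSub_smul_one (a : End k N) (c : k) :
    homSub a (c • (1 : End k k)) = LinearMap.ker ((a - c • (1 : End k N)).dualMap) := by
  ext f
  rw [mem_homSub_iff, LinearMap.mem_ker]
  constructor
  · intro h
    apply LinearMap.ext
    intro n
    rw [LinearMap.dualMap_apply, LinearMap.sub_apply, map_sub, h]
    simp
  · intro h n
    have := LinearMap.congr_fun h n
    rw [LinearMap.dualMap_apply, LinearMap.sub_apply, map_sub, LinearMap.zero_apply,
      sub_eq_zero] at this
    rw [this]
    simp

theorem hom_smul_one (a : End k N) (c : k) :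
    hom a (c • (1 : End k k)) = finrank k (LinearMap.ker (a - c • (1 : End k N))) := by
  unfold hom
  rw [homSub_smul_one, finrank_ker_dualMap]

theorem hom_one (a : End k N) :
    hom a (1 : End k k) = finrank k (LinearMap.ker (a - 1)) := by
  have := hom_smul_one a (1 : k)
  rwa [one_smul, one_smul] at this

end Scalar

/-! ### Permutation targets -/

section Perm

variable {N : Type*} [AddCommGroup N] [Module k N] {P : Type*} (π : Equiv.Perm P)

/-- The `a`-twisted `π`-periodic functions `P → N`. -/
def twFix (a : End k N) : Submodule k (P → N) where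
  carrier := {x | ∀ v, x (π v) = a (x v)}
  add_mem' {x y} hx hy v := by
    rw [Pi.add_apply, Pi.add_apply, hx v, hy v, map_add]
  zero_mem' v := by
    rw [Pi.zero_apply, Pi.zero_apply, map_zero]
  smul_mem' c x hx v := by
    rw [Pi.smul_apply, Pi.smul_apply, hx v, map_smul]

theorem mem_twFix {a : End k N} {x : P → N} : x ∈ twFix π a ↔ ∀ v, x (π v) = a (x v) := Iff.rfl

/-- The operator `x ↦ (w ↦ a (x (π⁻¹ w)))` whose fixed space is `twFix π a`. -/
def twOp (a : End k N) : End k (P → N) where
  toFun x w := a (x (π.symm w))
  map_add' x y := by funext w; simp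
  map_smul' c x := by funext w; simp

theorem twOp_apply (a : End k N) (x : P → N) (w : P) : twOp π a x w = a (x (π.symm w)) := rfl

theorem twFix_eq_ker (a : End k N) : twFix π a = LinearMap.ker (twOp π a - 1) := by
  ext x
  rw [mem_twFix, LinearMap.mem_ker, LinearMap.sub_apply, sub_eq_zero]
  constructor
  · intro h
    funext w
    rw [twOp_apply, ← h (π.symm w), Equiv.apply_symm_apply]
    rfl
  · intro h v
    have := congrFun h (π v)
    rw [twOp_apply, Equiv.symm_apply_apply] at this
    exact this.symm

variable [Fintype P] [FiniteDimensional k N]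

/-- The pairing map `(N →ₗ (P → k)) → Dual (P → N)`, `f ↦ (x ↦ ∑ v, f (x v) v)`. -/
def pairMap : (N →ₗ[k] (P → k)) →ₗ[k] Dual k (P → N) where
  toFun f :=
    { toFun := fun x => ∑ v, f (x v) v
      map_add' := fun x y => by simp [Finset.sum_add_distrib]
      map_smul' := fun c x => by simp [Finset.mul_sum] }
  map_add' f g := by
    apply LinearMap.ext
    intro x
    simp [Finset.sum_add_distrib]
  map_smul' c f := by
    apply LinearMap.ext
    intro x
    simp [Finset.mul_sum]

theorem pairMap_apply (f : N →ₗ[k] (P → k)) (x : P → N) :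
    pairMap (k := k) (N := N) (P := P) f x = ∑ v, f (x v) v := rfl

theorem pairMap_single [DecidableEq P] (f : N →ₗ[k] (P → k)) (w : P) (n : N) :
    pairMap (k := k) (N := N) (P := P) f (Pi.single w n) = f n w := by
  rw [pairMap_apply, Finset.sum_eq_single w]
  · rw [Pi.single_eq_same]
  · intro v _ hv
    rw [Pi.single_eq_of_ne hv, map_zero]
    rfl
  · intro h; exact absurd (Finset.mem_univ w) h

theorem pairMap_injective : Function.Injective (pairMap (k := k) (N := N) (P := P)) := by
  classical
  rw [← LinearMap.ker_eq_bot, LinearMap.ker_eq_bot']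
  intro f hf
  apply LinearMap.ext
  intro n
  funext w
  have := LinearMap.congr_fun hf (Pi.single w n)
  rw [pairMap_single] at this
  exact this

/-- The pairing map as a linear equivalence. -/
noncomputable def pairEquiv : (N →ₗ[k] (P → k)) ≃ₗ[k] Dual k (P → N) :=
  LinearEquiv.ofBijective pairMap ⟨pairMap_injective,
    (LinearMap.injective_iff_surjective_of_finrank_eq_finrank (by
      rw [Module.finrank_linearMap, Subspace.dual_finrank_eq, Module.finrank_fintype_fun_eq_card,
        Module.finrank_pi_fintype, Finset.sum_const, Finset.card_univ, smul_eq_mul,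
        mul_comm])).mp pairMap_injective⟩

theorem pairEquiv_apply (f : N →ₗ[k] (P → k)) :
    pairEquiv (k := k) (N := N) (P := P) f = pairMap f := rfl

theorem mem_homSub_permEnd_iff (a : End k N) (f : N →ₗ[k] (P → k)) :
    f ∈ homSub a (permEnd k π) ↔
      pairMap f ∈ LinearMap.ker ((twOp π a - 1).dualMap) := by
  classical
  rw [mem_homSub_iff, LinearMap.mem_ker]
  constructor
  · intro h
    apply LinearMap.ext
    intro x
    rw [LinearMap.dualMap_apply, LinearMap.zero_apply, LinearMap.sub_apply, map_sub, sub_eq_zero,
      pairMap_apply, pairMap_apply]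
    rw [← Equiv.sum_comp π]
    refine Finset.sum_congr rfl fun w _ => ?_
    rw [twOp_apply, Equiv.symm_apply_apply, h, permEnd_apply_perm]
    rfl
  · intro h n
    funext w'
    obtain ⟨w, rfl⟩ := π.surjective w'
    rw [permEnd_apply_perm]
    have := LinearMap.congr_fun h (Pi.single w n)
    rw [LinearMap.dualMap_apply, LinearMap.zero_apply, LinearMap.sub_apply, map_sub, sub_eq_zero,
      Module.End.one_apply, pairMap_single, pairMap_apply] at this
    rw [← this, Finset.sum_eq_single (π w)]
    · rw [twOp_apply, Equiv.symm_apply_apply, Pi.single_eq_same]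
    · intro v _ hv
      rw [twOp_apply, Pi.single_eq_of_ne, map_zero, map_zero]
      · rfl
      · intro h'
        apply hv
        rw [← h', Equiv.apply_symm_apply]
    · intro h'; exact absurd (Finset.mem_univ _) h'

theorem hom_permEnd (a : End k N) : hom a (permEnd k π) = finrank k (twFix π a) := by
  unfold hom
  have h1 : homSub a (permEnd k π) =
      (LinearMap.ker ((twOp π a - 1).dualMap)).comap
        (pairEquiv (k := k) (N := N) (P := P)).toLinearMap := by
    ext f
    rw [mem_homSub_permEnd_iff, Submodule.mem_comap]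
    rfl
  rw [h1, Submodule.comap_equiv_eq_map_symm, LinearEquiv.finrank_map_eq, finrank_ker_dualMap,
    twFix_eq_ker]

end Perm

end Fermat.Agent.TW.DirHerb5.HomCalc
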