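/-
Programme TW (S56), brick C3-T4b (Dirichlet-Herbrand mod p), helper5.

The logarithmic / valuation map on the `T`-units of a number field, indexed by
`InfinitePlace F ⊕ T`, and the fact that its image together with the vector
`(1,…,1 ; 0,…,0)` spans the whole real space.
-/
import Mathlib
import Fermat.Agent.PT.GLOB.SUnitRank17

set_option autoImplicit false
set_option linter.unusedSectionVars false

open NumberField NumberField.InfinitePlace NumberField.Units IsDedekindDomain Module
open NumberField.Units.dirichletUnitTheorem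
open Fermat.Agent.PT.GLOB.SUnitRank17

namespace Fermat.Agent.TW.DirHerb5.UnitsSpan

variable (F : Type*) [Field F] [NumberField F]

/-! ### The full logarithmic map on the units -/

/-- The logarithmic map on the units, with values in functions on ALL infinite places. -/
noncomputable def unitsLog : Additive (𝓞 F)ˣ →+ (InfinitePlace F → ℝ) where
  toFun x w := mult w * Real.log (w (x.toMul : F))
  map_zero' := by ext w; simp
  map_add' x y := by
    ext w
    simp only [toMul_add, Units.val_mul, map_mul, Pi.add_apply]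
    rw [Real.log_mul, mul_add]
    · exact (map_ne_zero _).mpr (RingOfIntegers.coe_ne_zero_iff.mpr (Units.ne_zero _))
    · exact (map_ne_zero _).mpr (RingOfIntegers.coe_ne_zero_iff.mpr (Units.ne_zero _))

theorem unitsLog_apply (x : Additive (𝓞 F)ˣ) (w : InfinitePlace F) :
    unitsLog F x w = mult w * Real.log (w (x.toMul : F)) := rfl

theorem unitsLog_restrict (x : Additive (𝓞 F)ˣ) :
    (fun w : {w : InfinitePlace F // w ≠ w₀} => unitsLog F x w.1) = logEmbedding F x := rfl

theorem sum_unitsLog (x : Additive (𝓞 F)ˣ) : ∑ w, unitsLog F x w = 0 :=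
  sum_mult_mul_log x.toMul

theorem unitsLog_span :
    Submodule.span ℝ (Set.range (unitsLog F)) ⊔
      Submodule.span ℝ {(fun _ => 1 : InfinitePlace F → ℝ)} = ⊤ := by
  classical
  rw [eq_top_iff]
  intro y _
  let r : (InfinitePlace F → ℝ) →ₗ[ℝ] logSpace F := LinearMap.funLeft ℝ ℝ Subtype.val
  have hmap : (Submodule.span ℝ (Set.range (unitsLog F))).map r = ⊤ := by
    rw [Submodule.map_span, ← Set.range_comp, eq_top_iff, ← unitLattice_span_eq_top]
    apply Submodule.span_mono
    rintro _ ⟨x, -, rfl⟩
    exact ⟨x, rfl⟩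
  have hn : (Fintype.card (InfinitePlace F) : ℝ) ≠ 0 := by
    exact_mod_cast Fintype.card_ne_zero
  set c : ℝ := (∑ w, y w) / (Fintype.card (InfinitePlace F) : ℝ) with hc
  set y' : InfinitePlace F → ℝ := y - c • (fun _ => 1) with hy'
  have hy'sum : ∑ w, y' w = 0 := by
    simp only [hy', Pi.sub_apply, Pi.smul_apply, smul_eq_mul, mul_one, Finset.sum_sub_distrib,
      Finset.sum_const, Finset.card_univ, nsmul_eq_mul]
    rw [hc]
    field_simp
    ring
  have hmem : r y' ∈ (Submodule.span ℝ (Set.range (unitsLog F))).map r := by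
    rw [hmap]; trivial
  obtain ⟨z, hz, hzr⟩ := hmem
  have hzsum : ∑ w, z w = 0 := by
    have hle : Submodule.span ℝ (Set.range (unitsLog F)) ≤
        LinearMap.ker (∑ w : InfinitePlace F, LinearMap.proj (R := ℝ) (φ := fun _ => ℝ) w) := by
      rw [Submodule.span_le]
      rintro _ ⟨x, rfl⟩
      rw [SetLike.mem_coe, LinearMap.mem_ker, LinearMap.sum_apply]
      exact sum_unitsLog F x
    have := hle hz
    rw [LinearMap.mem_ker, LinearMap.sum_apply] at this
    exact this
  have hyz : y' = z := by
    have hne : ∀ w : InfinitePlace F, w ≠ w₀ → y' w = z w := fun w hw =>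
      (congrFun hzr ⟨w, hw⟩).symm
    funext w
    by_cases hw : w = w₀
    · have h1 : ∑ w, (y' w - z w) = 0 := by
        rw [Finset.sum_sub_distrib, hy'sum, hzsum, sub_zero]
      rw [Fintype.sum_eq_single w₀ (fun w hw => by rw [hne w hw, sub_self])] at h1
      rw [hw]
      exact sub_eq_zero.mp h1
    · exact hne w hw
  have hy : y = z + c • (fun _ => 1) := by
    rw [← hyz, hy']
    abel
  rw [hy]
  exact Submodule.add_mem _ (Submodule.mem_sup_left hz)
    (Submodule.mem_sup_right (Submodule.smul_mem _ _ (Submodule.mem_span_singleton_self _)))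

/-! ### The map on the `T`-units -/

section SUnits

variable (T : Set (HeightOneSpectrum (𝓞 F)))

/-- The normalised additive valuation of a unit of `F` at a finite place, as an integer. -/
noncomputable def ordZ (v : HeightOneSpectrum (𝓞 F)) (x : Fˣ) : ℤ :=
  Multiplicative.toAdd (ordM F v x)

theorem ordZ_mul (v : HeightOneSpectrum (𝓞 F)) (x y : Fˣ) :
    ordZ F v (x * y) = ordZ F v x + ordZ F v y := by
  simp [ordZ, map_mul]

theorem ordZ_one (v : HeightOneSpectrum (𝓞 F)) : ordZ F v 1 = 0 := by
  simp [ordZ]

theorem ordZ_eq_zero_iff (v : HeightOneSpectrum (𝓞 F)) (x : Fˣ) :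
    ordZ F v x = 0 ↔ v.valuation F (x : F) = 1 := by
  rw [← ordM_eq_one_iff]
  exact ⟨fun h => Multiplicative.toAdd.injective h, fun h => by rw [ordZ, h]; rfl⟩

/-- The logarithmic / valuation map on the `T`-units, indexed by `InfinitePlace F ⊕ T`. -/
noncomputable def sLog : Additive (T.unit F) →+ (InfinitePlace F ⊕ T → ℝ) where
  toFun x := Sum.elim (fun w => mult w * Real.log (w (((x.toMul : T.unit F) : Fˣ) : F)))
    (fun v => ((ordZ F v.1 ((x.toMul : T.unit F) : Fˣ) : ℤ) : ℝ))
  map_zero' := by
    funext i
    rcases i with w | v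
    · simp
    · simp [ordZ_one]
  map_add' x y := by
    funext i
    rcases i with w | v
    · simp only [toMul_add, Subgroup.coe_mul, Units.val_mul, map_mul, Sum.elim_inl, Pi.add_apply]
      rw [Real.log_mul, mul_add]
      · exact (map_ne_zero _).mpr (Units.ne_zero _)
      · exact (map_ne_zero _).mpr (Units.ne_zero _)
    · simp only [toMul_add, Subgroup.coe_mul, Sum.elim_inr, Pi.add_apply, ordZ_mul]
      push_cast
      ring

theorem sLog_inl (x : Additive (T.unit F)) (w : InfinitePlace F) :
    sLog F T x (Sum.inl w) = mult w * Real.log (w (((x.toMul : T.unit F) : Fˣ) : F)) := rfl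

theorem sLog_inr (x : Additive (T.unit F)) (v : T) :
    sLog F T x (Sum.inr v) = ((ordZ F v.1 ((x.toMul : T.unit F) : Fˣ) : ℤ) : ℝ) := rfl

/-- The fixed vector `(1,…,1 ; 0,…,0)`. -/
def zVec : InfinitePlace F ⊕ T → ℝ := Sum.elim (fun _ => 1) (fun _ => 0)

/-- Extension by zero from the infinite places. -/
def inlLin : (InfinitePlace F → ℝ) →ₗ[ℝ] (InfinitePlace F ⊕ T → ℝ) where
  toFun y := Sum.elim y (fun _ => 0)
  map_add' y y' := by
    funext i
    rcases i with w | v <;> simp
  map_smul' c y := by
    funext i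
    rcases i with w | v <;> simp

theorem inlLin_apply (y : InfinitePlace F → ℝ) : inlLin F T y = Sum.elim y (fun _ => 0) := rfl

theorem sLog_unitsToSUnit (u : (𝓞 F)ˣ) :
    sLog F T (Additive.ofMul (unitsToSUnit F T u)) = inlLin F T (unitsLog F (Additive.ofMul u)) := by
  funext i
  rcases i with w | v
  · rfl
  · rw [sLog_inr, inlLin_apply, Sum.elim_inr]
    have : ordZ F v.1 ((unitsToSUnit F T u : T.unit F) : Fˣ) = 0 := by
      rw [ordZ_eq_zero_iff]
      exact valuation_algebraMap_unit F v.1 u
    simp only [toMul_ofMul, this, Int.cast_zero]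

theorem inlLin_mem (y : InfinitePlace F → ℝ) :
    inlLin F T y ∈ Submodule.span ℝ (Set.range (sLog F T)) ⊔ Submodule.span ℝ {zVec F T} := by
  have hle : (⊤ : Submodule ℝ (InfinitePlace F → ℝ)) ≤
      (Submodule.span ℝ (Set.range (sLog F T)) ⊔ Submodule.span ℝ {zVec F T}).comap
        (inlLin F T) := by
    rw [← unitsLog_span F, sup_le_iff, Submodule.span_le, Submodule.span_le]
    constructor
    · rintro _ ⟨x, rfl⟩
      rw [SetLike.mem_coe, Submodule.mem_comap]
      apply Submodule.mem_sup_left
      apply Submodule.subset_span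
      exact ⟨Additive.ofMul (unitsToSUnit F T x.toMul), sLog_unitsToSUnit F T x.toMul⟩
    · rintro _ rfl
      rw [SetLike.mem_coe, Submodule.mem_comap]
      apply Submodule.mem_sup_right
      have : inlLin F T (fun _ => 1) = zVec F T := rfl
      rw [this]
      exact Submodule.mem_span_singleton_self _
  exact hle trivial

theorem sLog_span [Finite T] :
    Submodule.span ℝ (Set.range (sLog F T)) ⊔ Submodule.span ℝ {zVec F T} = ⊤ := by
  classical
  have : Fintype T := Fintype.ofFinite T
  rw [eq_top_iff]
  intro x _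
  -- the coordinate vectors at the finite places
  have hB : ∀ v : T, (Sum.elim (fun _ => 0) (Pi.single v 1) : InfinitePlace F ⊕ T → ℝ) ∈
      Submodule.span ℝ (Set.range (sLog F T)) ⊔ Submodule.span ℝ {zVec F T} := by
    intro v
    obtain ⟨π, hπ1, hπ2⟩ := exists_diag F T v
    set c : ℤ := ordZ F v.1 (π : Fˣ) with hc
    have hc0 : (c : ℝ) ≠ 0 := by
      rw [Int.cast_ne_zero, hc, Ne, ordZ_eq_zero_iff, ← ordM_eq_one_iff]
      exact hπ1
    have hπ : sLog F T (Additive.ofMul π) =
        inlLin F T (fun w => sLog F T (Additive.ofMul π) (Sum.inl w)) +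
          (c : ℝ) • Sum.elim (fun _ => 0) (Pi.single v 1) := by
      funext i
      rcases i with w | v'
      · simp [inlLin_apply]
      · rw [sLog_inr]
        simp only [inlLin_apply, Pi.add_apply, Sum.elim_inr, Pi.smul_apply, smul_eq_mul, zero_add,
          toMul_ofMul]
        by_cases hv : v' = v
        · subst hv
          rw [Pi.single_eq_same, mul_one]
        · rw [Pi.single_eq_of_ne hv, mul_zero]
          have h1 : ordZ F v'.1 (π : Fˣ) = 0 := by
            rw [ordZ_eq_zero_iff, ← ordM_eq_one_iff]
            exact hπ2 v'.1 (fun h => hv (Subtype.ext h))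
          rw [h1, Int.cast_zero]
    have h2 : (Sum.elim (fun _ => 0) (Pi.single v 1) : InfinitePlace F ⊕ T → ℝ) =
        (c : ℝ)⁻¹ • (sLog F T (Additive.ofMul π) -
          inlLin F T (fun w => sLog F T (Additive.ofMul π) (Sum.inl w))) := by
      have h3 : sLog F T (Additive.ofMul π) -
          inlLin F T (fun w => sLog F T (Additive.ofMul π) (Sum.inl w)) =
          (c : ℝ) • Sum.elim (fun _ => 0) (Pi.single v 1) := by
        rw [sub_eq_iff_eq_add']
        exact hπ
      rw [h3, smul_smul, inv_mul_cancel₀ hc0, one_smul]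
    rw [h2]
    refine Submodule.smul_mem _ _ (Submodule.sub_mem _ ?_ (inlLin_mem F T _))
    exact Submodule.mem_sup_left (Submodule.subset_span ⟨_, rfl⟩)
  have hx : x = inlLin F T (fun w => x (Sum.inl w)) +
      ∑ v : T, x (Sum.inr v) • (Sum.elim (fun _ => 0) (Pi.single v 1) :
        InfinitePlace F ⊕ T → ℝ) := by
    funext i
    rcases i with w | v'
    · simp [inlLin_apply, Finset.sum_apply]
    · simp only [inlLin_apply, Pi.add_apply, Sum.elim_inr, zero_add, Finset.sum_apply,
        Pi.smul_apply, smul_eq_mul]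
      rw [Finset.sum_eq_single v']
      · rw [Pi.single_eq_same, mul_one]
      · intro v _ hv
        rw [Pi.single_eq_of_ne (Ne.symm hv), mul_zero]
      · intro h; exact absurd (Finset.mem_univ _) h
  rw [hx]
  refine Submodule.add_mem _ (inlLin_mem F T _) (Submodule.sum_mem _ fun v _ => ?_)
  exact Submodule.smul_mem _ _ (hB v)

end SUnits

end Fermat.Agent.TW.DirHerb5.UnitsSpan
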