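/-
Programme TW (S56), brick C3-T4b (Dirichlet-Herbrand mod p), helper5.

The action of an automorphism `σ` of a number field `F` on the finite places, on the `T`-units
(for a `σ`-stable set `T` of finite places), and on the index set `InfinitePlace F ⊕ T`;
equivariance of the logarithmic / valuation map.

(The first part is adapted from `PT/GLOB/SUnitsGalois24` of helper24, dropping the Galois
hypothesis.)
-/
import Mathlib
import Fermat.Agent.PT.GLOB.SUnitRank17
import Fermat.Agent.TW.DirHerb5.UnitsSpan

set_option autoImplicit false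
set_option linter.unusedSectionVars false

open NumberField NumberField.InfinitePlace IsDedekindDomain HeightOneSpectrum Module
open Fermat.Agent.PT.GLOB.SUnitRank17 Fermat.Agent.TW.DirHerb5.UnitsSpan
open scoped Pointwise

namespace Fermat.Agent.TW.DirHerb5.GaloisAction

variable {k : Type*} [Field k] (F : Type*) [Field F] [NumberField F] [Algebra k F]

/-! ### Action on the finite places -/

/-- The action of an automorphism on the primes of `𝓞 F`. -/
noncomputable def smulP (σ : F ≃ₐ[k] F) (v : HeightOneSpectrum (𝓞 F)) :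
    HeightOneSpectrum (𝓞 F) where
  asIdeal := σ • v.asIdeal
  isPrime := Ideal.IsPrime.smul σ
  ne_bot := by
    intro h
    apply v.ne_bot
    have := congrArg (fun I => σ⁻¹ • I) h
    simp only [inv_smul_smul] at this
    rw [this]
    exact Ideal.smul_bot _

theorem smulP_asIdeal (σ : F ≃ₐ[k] F) (v : HeightOneSpectrum (𝓞 F)) :
    (smulP F σ v).asIdeal = σ • v.asIdeal := rfl

theorem smulP_smulP (σ τ : F ≃ₐ[k] F) (v : HeightOneSpectrum (𝓞 F)) :
    smulP F σ (smulP F τ v) = smulP F (σ * τ) v := by
  apply HeightOneSpectrum.ext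
  simp only [smulP_asIdeal, mul_smul]

theorem smulP_one (v : HeightOneSpectrum (𝓞 F)) : smulP F (1 : F ≃ₐ[k] F) v = v := by
  apply HeightOneSpectrum.ext
  simp only [smulP_asIdeal, one_smul]

theorem smulP_inv_smulP (σ : F ≃ₐ[k] F) (v : HeightOneSpectrum (𝓞 F)) :
    smulP F σ⁻¹ (smulP F σ v) = v := by
  rw [smulP_smulP, inv_mul_cancel, smulP_one]

theorem smulP_smulP_inv (σ : F ≃ₐ[k] F) (v : HeightOneSpectrum (𝓞 F)) :
    smulP F σ (smulP F σ⁻¹ v) = v := by
  rw [smulP_smulP, mul_inv_cancel, smulP_one]

theorem smulP_injective (σ : F ≃ₐ[k] F) : Function.Injective (smulP F σ) :=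
  Function.LeftInverse.injective (smulP_inv_smulP F σ)

theorem smul_span_singleton' (σ : F ≃ₐ[k] F) (a : 𝓞 F) :
    σ • (Ideal.span {a} : Ideal (𝓞 F)) = Ideal.span {σ • a} := by
  rw [Ideal.pointwise_smul_def, Ideal.map_span, Set.image_singleton]
  rfl

theorem intValuation_smulP (σ : F ≃ₐ[k] F) (v : HeightOneSpectrum (𝓞 F)) (a : 𝓞 F) :
    (smulP F σ v).intValuation (σ • a) = v.intValuation a := by
  by_cases ha : a = 0
  · subst ha
    simp
  have hσa : σ • a ≠ 0 := by
    intro h
    apply ha
    have := congrArg (fun x => σ⁻¹ • x) h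
    simpa using this
  rw [intValuation_eq_exp_neg_multiplicity _ hσa, intValuation_eq_exp_neg_multiplicity _ ha,
    smulP_asIdeal, ← smul_span_singleton']
  have := multiplicity_map_eq (MulDistribMulAction.toMulEquiv (Ideal (𝓞 F)) σ)
    (a := v.asIdeal) (b := Ideal.span {a})
  simp only [MulDistribMulAction.toMulEquiv_apply] at this
  rw [this]

theorem coe_smul_integer' (σ : F ≃ₐ[k] F) (a : 𝓞 F) :
    algebraMap (𝓞 F) F (σ • a) = σ (algebraMap (𝓞 F) F a) := rfl

/-- The action is compatible with the valuations. -/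
theorem valuation_smulP (σ : F ≃ₐ[k] F) (v : HeightOneSpectrum (𝓞 F)) (x : F) :
    (smulP F σ v).valuation F (σ x) = v.valuation F x := by
  obtain ⟨a, b, hb, rfl⟩ := IsFractionRing.div_surjective (A := 𝓞 F) x
  rw [map_div₀, map_div₀, map_div₀, ← coe_smul_integer', ← coe_smul_integer',
    valuation_of_algebraMap, valuation_of_algebraMap, valuation_of_algebraMap,
    valuation_of_algebraMap, intValuation_smulP, intValuation_smulP]

theorem valuation_apply_eq (σ : F ≃ₐ[k] F) (v : HeightOneSpectrum (𝓞 F)) (x : F) :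
    v.valuation F (σ x) = (smulP F σ⁻¹ v).valuation F x := by
  have := valuation_smulP F σ (smulP F σ⁻¹ v) x
  rwa [smulP_smulP_inv] at this

/-! ### Action on the `T`-units -/

section Units

variable (σ : F ≃ₐ[k] F) (T : Set (HeightOneSpectrum (𝓞 F)))
  (hT : ∀ v ∈ T, smulP F σ v ∈ T)

/-- The action of `σ` on the `T`-units, `T` a `σ`-stable set of finite places. -/
noncomputable def unitMap : T.unit F →* T.unit F :=
  ((Units.map (σ : F →* F)).comp (T.unit F).subtype).codRestrict _ (fun x v hv => by
    change v.valuation F (σ ((x : Fˣ) : F)) = 1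
    rw [valuation_apply_eq]
    exact x.2 _ (fun h => hv (by have := hT _ h; rwa [smulP_smulP_inv] at this)))

theorem coe_unitMap (x : T.unit F) :
    (((unitMap F σ T hT x : T.unit F) : Fˣ) : F) = σ ((x : Fˣ) : F) := rfl

/-- The action of `σ` on the `T`-units as a `ℤ`-linear endomorphism of the additive group. -/
noncomputable def unitLin : Additive (T.unit F) →ₗ[ℤ] Additive (T.unit F) :=
  (MonoidHom.toAdditive (unitMap F σ T hT)).toIntLinearMap

theorem coe_unitLin (x : Additive (T.unit F)) :
    ((((unitLin F σ T hT x).toMul : T.unit F) : Fˣ) : F) = σ (((x.toMul : T.unit F) : Fˣ) : F) :=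
  rfl

theorem coe_unitLin_pow (n : ℕ) (x : Additive (T.unit F)) :
    (((((unitLin F σ T hT ^ n) x).toMul : T.unit F) : Fˣ) : F) =
      (σ ^ n) (((x.toMul : T.unit F) : Fˣ) : F) := by
  induction n with
  | zero => simp
  | succ n ih =>
    rw [pow_succ', pow_succ', Module.End.mul_apply, coe_unitLin, ih, AlgEquiv.mul_apply]

theorem unitLin_pow_eq_one {m : ℕ} (hσ : σ ^ m = 1) : unitLin F σ T hT ^ m = 1 := by
  apply LinearMap.ext
  intro x
  apply Additive.toMul.injective
  apply Subtype.ext
  apply Units.ext
  rw [coe_unitLin_pow, hσ]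
  rfl

/-! ### Action on the index set -/

/-- The map induced by `σ` on `T`. -/
noncomputable def placeMapT : T → T := fun v => ⟨smulP F σ v.1, hT v.1 v.2⟩

theorem placeMapT_bijective [Finite T] : Function.Bijective (placeMapT F σ T hT) :=
  Finite.injective_iff_bijective.mp
    (fun _ _ h => Subtype.ext (smulP_injective F σ (congrArg Subtype.val h)))

/-- The permutation induced by `σ` on `InfinitePlace F ⊕ T`. -/
noncomputable def placePerm [Finite T] : Equiv.Perm (InfinitePlace F ⊕ T) :=
  Equiv.sumCongr (MulAction.toPerm σ) (Equiv.ofBijective _ (placeMapT_bijective F σ T hT))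

theorem placePerm_inl [Finite T] (w : InfinitePlace F) :
    placePerm F σ T hT (Sum.inl w) = Sum.inl (σ • w) := rfl

theorem placePerm_inr [Finite T] (v : T) :
    placePerm F σ T hT (Sum.inr v) = Sum.inr ⟨smulP F σ v.1, hT v.1 v.2⟩ := rfl

theorem zVec_placePerm [Finite T] (i : InfinitePlace F ⊕ T) :
    zVec F T (placePerm F σ T hT i) = zVec F T i := by
  rcases i with w | v <;> rfl

theorem mult_smul' (w : InfinitePlace F) : mult (σ • w) = mult w := by
  by_cases h : w.IsReal
  · have h' : (σ • w).IsReal := isReal_smul_iff.mpr h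
    rw [h'.mult_eq_one, h.mult_eq_one]
  · have h' : ¬ (σ • w).IsReal := fun h' => h (isReal_smul_iff.mp h')
    rw [mult, mult, if_neg h, if_neg h']

theorem ordZ_smulP (v : HeightOneSpectrum (𝓞 F)) (x : Fˣ) :
    ordZ F (smulP F σ v) (Units.map (σ : F →* F) x) = ordZ F v x := by
  unfold ordZ
  congr 1
  apply WithZero.coe_injective
  rw [coe_ordM, coe_ordM]
  exact valuation_smulP F σ v (x : F)

/-- The logarithmic / valuation map is equivariant. -/
theorem sLog_equivariant [Finite T] (x : Additive (T.unit F)) (i : InfinitePlace F ⊕ T) :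
    sLog F T (unitLin F σ T hT x) (placePerm F σ T hT i) = sLog F T x i := by
  rcases i with w | v
  · rw [placePerm_inl, sLog_inl, sLog_inl, mult_smul', coe_unitLin, InfinitePlace.smul_apply,
      AlgEquiv.symm_apply_apply]
  · rw [placePerm_inr, sLog_inr, sLog_inr]
    congr 1
    exact ordZ_smulP F σ v.1 _

end Units

end Fermat.Agent.TW.DirHerb5.GaloisAction
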