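/-
Programme TW (S56), brick C3-T4b (Dirichlet-Herbrand mod p), helper5.

Linear algebra input: over a field, two SEMISIMPLE endomorphisms of finite-dimensional spaces with
the same characteristic polynomial are conjugate.
-/
import Mathlib

set_option autoImplicit false

open Polynomial Module TensorProduct

namespace Fermat.Agent.TW.DirHerb5.SemisimpleConj

universe u v w

variable {k : Type u} [Field k]

/-- `f₁` and `f₂` are conjugate by a linear equivalence. -/
def Conj {V₁ : Type v} {V₂ : Type w} [AddCommGroup V₁] [Module k V₁] [AddCommGroup V₂]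
    [Module k V₂] (f₁ : End k V₁) (f₂ : End k V₂) : Prop :=
  ∃ e : V₁ ≃ₗ[k] V₂, ∀ x, e (f₁ x) = f₂ (e x)

section Basic

variable {V₁ : Type v} {V₂ : Type w} [AddCommGroup V₁] [Module k V₁] [AddCommGroup V₂]
  [Module k V₂]

theorem Conj.symm {f₁ : End k V₁} {f₂ : End k V₂} (h : Conj f₁ f₂) : Conj f₂ f₁ := by
  obtain ⟨e, he⟩ := h
  refine ⟨e.symm, fun x => ?_⟩
  apply e.injective
  rw [he, e.apply_symm_apply, e.apply_symm_apply]

theorem Conj.trans {V₃ : Type*} [AddCommGroup V₃] [Module k V₃] {f₁ : End k V₁} {f₂ : End k V₂}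
    {f₃ : End k V₃} (h : Conj f₁ f₂) (h' : Conj f₂ f₃) : Conj f₁ f₃ := by
  obtain ⟨e, he⟩ := h
  obtain ⟨e', he'⟩ := h'
  exact ⟨e.trans e', fun x => by simp [he, he']⟩

theorem Conj.charpoly_eq [FiniteDimensional k V₁] [FiniteDimensional k V₂] {f₁ : End k V₁}
    {f₂ : End k V₂} (h : Conj f₁ f₂) : f₁.charpoly = f₂.charpoly := by
  obtain ⟨e, he⟩ := h
  have : e.conj f₁ = f₂ := by
    ext x
    rw [LinearEquiv.conj_apply_apply, he, e.apply_symm_apply]
  rw [← this, LinearEquiv.charpoly_conj]

end Basic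

/-! ### An irreducible factor of the characteristic polynomial has a nonzero kernel -/

section Kernel

variable {V : Type v} [AddCommGroup V] [Module k V] [FiniteDimensional k V]

theorem ker_aeval_ne_bot_of_dvd_charpoly (f : End k V) {g : k[X]} (hg : Irreducible g)
    (hdvd : g ∣ f.charpoly) : LinearMap.ker (aeval f g) ≠ ⊥ := by
  intro hker
  have : Fact (Irreducible g) := ⟨hg⟩
  let K := AdjoinRoot g
  let fK : End K (K ⊗[k] V) := f.baseChange K
  have hroot : (fK.charpoly).IsRoot (AdjoinRoot.root g) := by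
    have h1 : fK.charpoly = f.charpoly.map (algebraMap k K) := LinearMap.charpoly_baseChange f K
    rw [h1]
    obtain ⟨q, hq⟩ := hdvd
    rw [hq, Polynomial.map_mul, IsRoot.def, eval_mul, eval_map]
    have : eval₂ (algebraMap k K) (AdjoinRoot.root g) g = 0 := AdjoinRoot.eval₂_root g
    rw [this, zero_mul]
  have hev : fK.HasEigenvalue (AdjoinRoot.root g) :=
    (Module.End.hasEigenvalue_iff_isRoot_charpoly fK _).mpr hroot
  obtain ⟨x, hx⟩ := hev.exists_hasEigenvector
  have h2 : (aeval fK (g.map (algebraMap k K))) x = eval (AdjoinRoot.root g) (g.map (algebraMap k K)) • x :=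
    Module.End.aeval_apply_of_hasEigenvector hx
  have h3 : eval (AdjoinRoot.root g) (g.map (algebraMap k K)) = 0 := by
    rw [eval_map]; exact AdjoinRoot.eval₂_root g
  rw [h3, zero_smul] at h2
  have h4 : aeval fK (g.map (algebraMap k K)) = (aeval f g).baseChange K := by
    rw [aeval_map_algebraMap]
    exact aeval_algHom_apply (Module.End.baseChangeHom k K V) f g
  rw [h4] at h2
  have hinj : Function.Injective ((aeval f g).baseChange K) := by
    have : Function.Injective (aeval f g) := LinearMap.ker_eq_bot.mp hker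
    exact Module.Flat.lTensor_preserves_injective_linearMap (M := K) (aeval f g) this
  have : x = 0 := hinj (by rw [h2, map_zero])
  exact hx.2 this

end Kernel


/-! ### The cyclic submodule generated by a vector killed by an irreducible polynomial -/

section Cyclic

variable {V : Type v} [AddCommGroup V] [Module k V]

theorem aeval_restrict_apply (f : End k V) {p : Submodule k V} (hp : p ∈ f.invtSubmodule)
    (P : k[X]) (y : p) : ((aeval (f.restrict hp) P) y : V) = aeval f P y := by
  induction P using Polynomial.induction_on' with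
  | add P Q hP hQ => simp [hP, hQ]
  | monomial n a =>
    simp only [aeval_monomial, Module.End.mul_apply, Module.algebraMap_end_apply]
    have hpow : ∀ (n : ℕ) (y : p), (((f.restrict hp) ^ n) y : V) = (f ^ n) y := by
      intro n
      induction n with
      | zero => intro y; simp
      | succ n ih =>
        intro y
        rw [pow_succ, pow_succ, Module.End.mul_apply, Module.End.mul_apply, ih]
        rfl
    rw [Submodule.coe_smul, hpow]

theorem aeval_mul_self_comm (f : End k V) (g : k[X]) : aeval f g * f = f * aeval f g := by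
  have h1 : aeval f (g * X) = aeval f g * f := by rw [map_mul, aeval_X]
  have h2 : aeval f (X * g) = f * aeval f g := by rw [map_mul, aeval_X]
  rw [← h1, ← h2, mul_comm]

theorem ker_aeval_mem_invtSubmodule (f : End k V) (g : k[X]) :
    LinearMap.ker (aeval f g) ∈ f.invtSubmodule := by
  rw [Module.End.mem_invtSubmodule]
  intro x hx
  rw [Submodule.mem_comap, LinearMap.mem_ker]
  rw [LinearMap.mem_ker] at hx
  have := congrArg (fun T : End k V => T x) (aeval_mul_self_comm f g)
  simp only [Module.End.mul_apply] at this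
  rw [this, hx, map_zero]

/-- For `g` irreducible and `w ≠ 0` with `g(f) w = 0`, the cyclic subspace generated by `w` is a
copy of `AdjoinRoot g` on which `f` acts as multiplication by the root. -/
theorem exists_cyclic (f : End k V) {g : k[X]} (hg : Irreducible g) {w : V} (hw : w ≠ 0)
    (hgw : aeval f g w = 0) :
    ∃ U : Submodule k V, ∃ _ : U ∈ f.invtSubmodule, ∃ e : AdjoinRoot g ≃ₗ[k] U,
      ∀ a, (e (AdjoinRoot.root g * a) : V) = f (e a) := by
  have : Fact (Irreducible g) := ⟨hg⟩
  let W : Submodule k V := LinearMap.ker (aeval f g)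
  have hW : W ∈ f.invtSubmodule := ker_aeval_mem_invtSubmodule f g
  let fW : End k W := f.restrict hW
  have hfW : aeval fW g = 0 := by
    ext y
    rw [aeval_restrict_apply f hW g y]
    exact y.2
  let φ : AdjoinRoot g →+* End k W :=
    Ideal.Quotient.lift (Ideal.span {g}) ((aeval fW : k[X] →ₐ[k] End k W) : k[X] →+* End k W) (by
      intro a ha
      obtain ⟨b, rfl⟩ := Ideal.mem_span_singleton.mp ha
      change aeval fW (g * b) = 0
      rw [map_mul, hfW, zero_mul])
  have hφmk : ∀ P : k[X], φ (AdjoinRoot.mk g P) = aeval fW P := fun P => rfl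
  let w' : W := ⟨w, hgw⟩
  let ψ₀ : AdjoinRoot g →+ V :=
    (W.subtype : W →+ V).comp ((AddMonoidHom.eval w' : (W →+ W) →+ W).comp
      ((LinearMap.toAddMonoidHom' : End k W →+ (W →+ W)).comp (φ : AdjoinRoot g →+ End k W)))
  have hψ : ∀ a, ψ₀ a = ((φ a) w' : V) := fun a => rfl
  have hmul : ∀ a b, ψ₀ (a * b) = ((φ a) ((φ b) w') : V) := fun a b => by
    rw [hψ, map_mul]; rfl
  let ψ : AdjoinRoot g →ₗ[k] V :=
    { toFun := ψ₀
      map_add' := map_add ψ₀
      map_smul' := fun c a => by
        rw [RingHom.id_apply, Algebra.smul_def, AdjoinRoot.algebraMap_eq, hmul, hψ]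
        have : φ (AdjoinRoot.of g c) = algebraMap k (End k W) c := by
          rw [← AdjoinRoot.mk_C, hφmk, aeval_C]
        rw [this, Module.algebraMap_end_apply]
        rfl }
  have hψ' : ∀ a, ψ a = ψ₀ a := fun a => rfl
  have hinj : Function.Injective ψ := by
    rw [← LinearMap.ker_eq_bot, LinearMap.ker_eq_bot']
    intro a ha
    by_contra ha0
    have h1 : ψ₀ (a⁻¹ * a) = 0 := by
      rw [hmul]
      have : (φ a) w' = 0 := Subtype.ext (by rw [← hψ, ← hψ', ha]; rfl)
      rw [this, map_zero]; rfl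
    rw [inv_mul_cancel₀ ha0, hψ, map_one] at h1
    exact hw h1
  have hroot : ∀ a, ψ (AdjoinRoot.root g * a) = f (ψ a) := fun a => by
    rw [hψ', hψ', hmul, hψ]
    have : φ (AdjoinRoot.root g) = fW := by
      rw [← AdjoinRoot.mk_X, hφmk, aeval_X]
    rw [this]
    rfl
  refine ⟨LinearMap.range ψ, ?_, LinearEquiv.ofInjective ψ hinj, fun a => ?_⟩
  · rw [Module.End.mem_invtSubmodule]
    rintro _ ⟨a, rfl⟩
    exact ⟨AdjoinRoot.root g * a, hroot a⟩
  · exact hroot a

end Cyclic

/-! ### Splitting along complementary invariant subspaces -/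

section Split

variable {V : Type v} [AddCommGroup V] [Module k V]

theorem conj_prodMap_of_isCompl (f : End k V) {U U' : Submodule k V} (hU : U ∈ f.invtSubmodule)
    (hU' : U' ∈ f.invtSubmodule) (hc : IsCompl U U') :
    Conj ((f.restrict hU).prodMap (f.restrict hU')) f := by
  refine ⟨Submodule.prodEquivOfIsCompl U U' hc, fun x => ?_⟩
  obtain ⟨u, u'⟩ := x
  rw [Submodule.coe_prodEquivOfIsCompl', Submodule.coe_prodEquivOfIsCompl']
  simp only [LinearMap.prodMap_apply, map_add]
  rfl

theorem Conj.prodMap {V₁ : Type*} {V₂ : Type*} {V₃ : Type*} {V₄ : Type*} [AddCommGroup V₁]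
    [Module k V₁] [AddCommGroup V₂] [Module k V₂] [AddCommGroup V₃] [Module k V₃]
    [AddCommGroup V₄] [Module k V₄] {f₁ : End k V₁} {f₂ : End k V₂} {f₃ : End k V₃}
    {f₄ : End k V₄} (h : Conj f₁ f₂) (h' : Conj f₃ f₄) :
    Conj (f₁.prodMap f₃) (f₂.prodMap f₄) := by
  obtain ⟨e, he⟩ := h
  obtain ⟨e', he'⟩ := h'
  refine ⟨e.prodCongr e', fun x => ?_⟩
  obtain ⟨a, b⟩ := x
  simp [he, he']

end Split

/-! ### Main theorem -/

section Main

theorem conj_of_charpoly_eq_aux (n : ℕ) :
    ∀ (V₁ : Type v) (V₂ : Type w) [AddCommGroup V₁] [Module k V₁] [AddCommGroup V₂]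
      [Module k V₂] [FiniteDimensional k V₁] [FiniteDimensional k V₂] (f₁ : End k V₁)
      (f₂ : End k V₂), f₁.IsSemisimple → f₂.IsSemisimple → f₁.charpoly = f₂.charpoly →
      Module.finrank k V₁ = n → Conj f₁ f₂ := by
  induction n using Nat.strong_induction_on with
  | _ n ih =>
    intro V₁ V₂ _ _ _ _ _ _ f₁ f₂ hs₁ hs₂ hcp hn
    have hn₂ : Module.finrank k V₂ = n := by
      rw [← hn, ← LinearMap.charpoly_natDegree f₁, ← LinearMap.charpoly_natDegree f₂, hcp]
    rcases Nat.eq_zero_or_pos n with h0 | hpos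
    · -- both spaces are trivial
      subst h0
      have h1 : Subsingleton V₁ := Module.finrank_zero_iff.mp hn
      have h2 : Subsingleton V₂ := Module.finrank_zero_iff.mp hn₂
      exact ⟨LinearEquiv.ofSubsingleton V₁ V₂, fun x => Subsingleton.elim _ _⟩
    · -- pick an irreducible factor of the characteristic polynomial
      have hdeg : 0 < f₁.charpoly.degree := by
        rw [← Polynomial.natDegree_pos_iff_degree_pos, LinearMap.charpoly_natDegree, hn]
        exact hpos
      obtain ⟨g, hg, hgdvd⟩ := Polynomial.exists_irreducible_of_degree_pos hdeg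
      have hk₁ := ker_aeval_ne_bot_of_dvd_charpoly f₁ hg hgdvd
      have hk₂ := ker_aeval_ne_bot_of_dvd_charpoly f₂ hg (hcp ▸ hgdvd)
      obtain ⟨w₁, hw₁, hw₁0⟩ := (Submodule.ne_bot_iff _).mp hk₁
      obtain ⟨w₂, hw₂, hw₂0⟩ := (Submodule.ne_bot_iff _).mp hk₂
      obtain ⟨U₁, hU₁, e₁, he₁⟩ := exists_cyclic f₁ hg hw₁0 (LinearMap.mem_ker.mp hw₁)
      obtain ⟨U₂, hU₂, e₂, he₂⟩ := exists_cyclic f₂ hg hw₂0 (LinearMap.mem_ker.mp hw₂)
      obtain ⟨U₁', hU₁', hc₁⟩ := Module.End.isSemisimple_iff.mp hs₁ U₁ hU₁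
      obtain ⟨U₂', hU₂', hc₂⟩ := Module.End.isSemisimple_iff.mp hs₂ U₂ hU₂
      -- the cyclic pieces are conjugate
      have hcyc : Conj (f₁.restrict hU₁) (f₂.restrict hU₂) := by
        refine ⟨e₁.symm.trans e₂, fun x => ?_⟩
        obtain ⟨a, rfl⟩ := e₁.surjective x
        have h1 : (f₁.restrict hU₁) (e₁ a) = e₁ (AdjoinRoot.root g * a) :=
          Subtype.ext (by rw [he₁]; rfl)
        have h2 : (f₂.restrict hU₂) (e₂ a) = e₂ (AdjoinRoot.root g * a) :=
          Subtype.ext (by rw [he₂]; rfl)
        simp only [LinearEquiv.trans_apply, LinearEquiv.symm_apply_apply, h1, h2]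
      have hP₁ := conj_prodMap_of_isCompl f₁ hU₁ hU₁' hc₁
      have hP₂ := conj_prodMap_of_isCompl f₂ hU₂ hU₂' hc₂
      have hcp₁ := hP₁.charpoly_eq
      have hcp₂ := hP₂.charpoly_eq
      rw [LinearMap.charpoly_prodMap] at hcp₁ hcp₂
      have hcpU : (f₁.restrict hU₁).charpoly = (f₂.restrict hU₂).charpoly := hcyc.charpoly_eq
      have hcp' : (f₁.restrict hU₁').charpoly = (f₂.restrict hU₂').charpoly := by
        have hne : (f₁.restrict hU₁).charpoly ≠ 0 := (LinearMap.charpoly_monic _).ne_zero
        apply mul_left_cancel₀ hne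
        rw [hcp₁, hcp, ← hcp₂, hcpU]
      -- dimension of the complement drops
      have hdim : Module.finrank k U₁' < n := by
        have h1 : Module.finrank k U₁ + Module.finrank k U₁' = Module.finrank k V₁ :=
          Submodule.finrank_add_eq_of_isCompl hc₁
        have h2 : 0 < Module.finrank k U₁ := by
          rw [← LinearEquiv.finrank_eq e₁]
          have : Fact (Irreducible g) := ⟨hg⟩
          have : Module.Finite k (AdjoinRoot g) :=
            (AdjoinRoot.powerBasis hg.ne_zero).finite
          exact Module.finrank_pos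
        omega
      have hrec := ih _ hdim U₁' U₂' (f₁.restrict hU₁') (f₂.restrict hU₂')
        (hs₁.restrict hU₁') (hs₂.restrict hU₂') hcp' rfl
      exact hP₁.symm.trans ((hcyc.prodMap hrec).trans hP₂)

/-- **Semisimple endomorphisms with the same characteristic polynomial are conjugate.** -/
theorem conj_of_charpoly_eq {V₁ : Type v} {V₂ : Type w} [AddCommGroup V₁] [Module k V₁]
    [AddCommGroup V₂] [Module k V₂] [FiniteDimensional k V₁] [FiniteDimensional k V₂]
    {f₁ : End k V₁} {f₂ : End k V₂} (h₁ : f₁.IsSemisimple) (h₂ : f₂.IsSemisimple)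
    (h : f₁.charpoly = f₂.charpoly) : Conj f₁ f₂ :=
  conj_of_charpoly_eq_aux _ V₁ V₂ f₁ f₂ h₁ h₂ h rfl

end Main

/-! ### Endomorphisms of finite order prime to the characteristic, and exact sequences -/

section FiniteOrder

variable {V : Type v} [AddCommGroup V] [Module k V]

theorem isSemisimple_of_pow_eq_one (f : End k V) {m : ℕ} (hm : (m : k) ≠ 0) (hf : f ^ m = 1) :
    f.IsSemisimple := by
  apply Module.End.isSemisimple_of_squarefree_aeval_eq_zero (p := X ^ m - 1)
  · exact (X_pow_sub_one_separable_iff.mpr hm).squarefree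
  · simp [hf]

/-- A semisimple endomorphism splits along an equivariant short exact sequence. -/
theorem conj_prodMap_of_exact {V' : Type*} {V'' : Type*} [AddCommGroup V'] [Module k V']
    [AddCommGroup V''] [Module k V''] {f : End k V} (hf : f.IsSemisimple) (f' : End k V')
    (f'' : End k V'') (i : V' →ₗ[k] V) (q : V →ₗ[k] V'') (hi : Function.Injective i)
    (hq : Function.Surjective q) (hex : LinearMap.range i = LinearMap.ker q)
    (hif : ∀ x, i (f' x) = f (i x)) (hqf : ∀ x, q (f x) = f'' (q x)) :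
    Conj f (f'.prodMap f'') := by
  have hU : LinearMap.range i ∈ f.invtSubmodule := by
    rw [Module.End.mem_invtSubmodule]
    rintro _ ⟨x, rfl⟩
    exact ⟨f' x, hif x⟩
  obtain ⟨U', hU', hc⟩ := Module.End.isSemisimple_iff.mp hf _ hU
  have h1 : Conj (f.restrict hU) f' := by
    refine Conj.symm ⟨LinearEquiv.ofInjective i hi, fun x => ?_⟩
    apply Subtype.ext
    change i (f' x) = f (i x)
    exact hif x
  have h2 : Conj (f.restrict hU') f'' := by
    let q' : U' →ₗ[k] V'' := q.comp U'.subtype
    have hq'inj : Function.Injective q' := by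
      rw [← LinearMap.ker_eq_bot, LinearMap.ker_eq_bot']
      intro y hy
      have h3 : (y : V) ∈ LinearMap.range i := by rw [hex]; exact hy
      have h4 : (y : V) ∈ LinearMap.range i ⊓ U' := ⟨h3, y.2⟩
      rw [hc.inf_eq_bot] at h4
      exact Subtype.ext ((Submodule.mem_bot k).mp h4)
    have hq'surj : Function.Surjective q' := by
      intro z
      obtain ⟨x, rfl⟩ := hq z
      have hx : x ∈ LinearMap.range i ⊔ U' := by rw [hc.sup_eq_top]; trivial
      obtain ⟨a, ha, b, hb, rfl⟩ := Submodule.mem_sup.mp hx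
      refine ⟨⟨b, hb⟩, ?_⟩
      have : q a = 0 := by rw [hex] at ha; exact ha
      change q b = q (a + b)
      rw [map_add, this, zero_add]
    refine ⟨LinearEquiv.ofBijective q' ⟨hq'inj, hq'surj⟩, fun y => ?_⟩
    change q (f y) = f'' (q y)
    exact hqf y
  exact (conj_prodMap_of_isCompl f hU hU' hc).symm.trans (h1.prodMap h2)

end FiniteOrder

end Fermat.Agent.TW.DirHerb5.SemisimpleConj
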