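/-
Programme TW (S56), brick C3-T4b (Dirichlet-Herbrand mod p), helper5.

Abstract Dirichlet-Herbrand: `A` a finitely generated abelian group with an endomorphism `s` of
finite order `m` prime to `p`, mapping equivariantly to a real permutation module `ℝ^P` with
`rank A + 1 = |P|` and `ι(A)` together with one fixed vector spanning `ℝ^P`.  Then, as
`𝔽_p`-vector spaces with an endomorphism,
`(𝔽_p ⊗ A) × 𝔽_p ≃ (𝔽_p ⊗ A_tors) × 𝔽_p^P`.
-/
import Mathlib
import Fermat.Agent.TW.DirHerb5.SemisimpleConj
import Fermat.Agent.TW.DirHerb5.LatticeCharpoly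

set_option autoImplicit false

open Polynomial Module TensorProduct

namespace Fermat.Agent.TW.DirHerb5.AbstractDH

open Fermat.Agent.TW.DirHerb5.SemisimpleConj Fermat.Agent.TW.DirHerb5.LatticeCharpoly

/-! ### Torsion part and free quotient -/

section Torsion

variable {A : Type*} [AddCommGroup A] (s : A →ₗ[ℤ] A)

theorem torsion_le_comap : Submodule.torsion ℤ A ≤ (Submodule.torsion ℤ A).comap s := by
  intro x hx
  rw [Submodule.mem_comap]
  obtain ⟨a, ha⟩ := (Submodule.mem_torsion_iff x).mp hx
  refine (Submodule.mem_torsion_iff _).mpr ⟨a, ?_⟩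
  rw [Submonoid.smul_def] at ha ⊢
  rw [← map_smul, ha, map_zero]

/-- The endomorphism induced on the torsion submodule. -/
def sTors : Submodule.torsion ℤ A →ₗ[ℤ] Submodule.torsion ℤ A :=
  s.restrict (torsion_le_comap s)

theorem sTors_coe (x : Submodule.torsion ℤ A) : (sTors s x : A) = s x := rfl

/-- The endomorphism induced on the torsion-free quotient. -/
def sFree : (A ⧸ Submodule.torsion ℤ A) →ₗ[ℤ] (A ⧸ Submodule.torsion ℤ A) :=
  (Submodule.torsion ℤ A).mapQ (Submodule.torsion ℤ A) s (torsion_le_comap s)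

theorem sFree_mk (x : A) :
    sFree s (Submodule.Quotient.mk x) = Submodule.Quotient.mk (s x) := rfl

theorem sFree_pow_mk (n : ℕ) (x : A) :
    (sFree s ^ n) (Submodule.Quotient.mk x) = Submodule.Quotient.mk ((s ^ n) x) := by
  induction n generalizing x with
  | zero => simp
  | succ n ih =>
    rw [pow_succ, pow_succ, Module.End.mul_apply, Module.End.mul_apply, sFree_mk, ih]

theorem sFree_pow_eq_one {m : ℕ} (hs : s ^ m = 1) : sFree s ^ m = 1 := by
  apply LinearMap.ext
  intro y
  obtain ⟨x, rfl⟩ := Submodule.Quotient.mk_surjective _ y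
  rw [sFree_pow_mk, hs]
  rfl

theorem sTors_pow_coe (n : ℕ) (x : Submodule.torsion ℤ A) :
    ((sTors s ^ n) x : A) = (s ^ n) x := by
  induction n generalizing x with
  | zero => simp
  | succ n ih =>
    rw [pow_succ, pow_succ, Module.End.mul_apply, Module.End.mul_apply, ih, sTors_coe]

theorem sTors_pow_eq_one {m : ℕ} (hs : s ^ m = 1) : sTors s ^ m = 1 := by
  apply LinearMap.ext
  intro x
  apply Subtype.ext
  rw [sTors_pow_coe, hs]
  rfl

variable {P : Type*}

theorem map_torsion_eq_zero (ι : A →+ (P → ℝ)) {x : A} (hx : x ∈ Submodule.torsion ℤ A) :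
    ι x = 0 := by
  obtain ⟨a, ha⟩ := (Submodule.mem_torsion_iff x).mp hx
  rw [Submonoid.smul_def] at ha
  have h1 : (a : ℤ) • ι x = 0 := by rw [← map_zsmul, ha, map_zero]
  have h2 : (a : ℤ) ≠ 0 := nonZeroDivisors.coe_ne_zero a
  funext v
  have h3 := congrFun h1 v
  simp only [Pi.smul_apply, Pi.zero_apply, zsmul_eq_mul] at h3
  rcases mul_eq_zero.mp h3 with h | h
  · exact absurd (by exact_mod_cast h) h2
  · exact h

/-- The map induced by `ι` on the torsion-free quotient. -/
def ιFree (ι : A →+ (P → ℝ)) : (A ⧸ Submodule.torsion ℤ A) →+ (P → ℝ) :=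
  ((Submodule.torsion ℤ A).liftQ ι.toIntLinearMap (fun _ hx => by
    rw [LinearMap.mem_ker]
    exact map_torsion_eq_zero ι hx)).toAddMonoidHom

theorem ιFree_mk (ι : A →+ (P → ℝ)) (x : A) : ιFree ι (Submodule.Quotient.mk x) = ι x := rfl

theorem range_ιFree (ι : A →+ (P → ℝ)) : Set.range (ιFree ι) = Set.range ι := by
  ext y
  constructor
  · rintro ⟨z, rfl⟩
    obtain ⟨x, rfl⟩ := Submodule.Quotient.mk_surjective _ z
    exact ⟨x, rfl⟩
  · rintro ⟨x, rfl⟩
    exact ⟨Submodule.Quotient.mk x, rfl⟩

end Torsion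

/-! ### The order of the permutation -/

section PermOrder

variable {A : Type*} [AddCommGroup A] {P : Type*}

theorem perm_pow_eq_one (π : Equiv.Perm P) (s : A →ₗ[ℤ] A) {m : ℕ} (hs : s ^ m = 1)
    (ι : A →+ (P → ℝ)) (z₀ : P → ℝ) (hz : ∀ v, z₀ (π v) = z₀ v)
    (heq : ∀ x v, ι (s x) (π v) = ι x v)
    (hspan : Submodule.span ℝ (Set.range ι) ⊔ Submodule.span ℝ {z₀} = ⊤) : π ^ m = 1 := by
  classical
  have hiter : ∀ (n : ℕ) (x : A) (v : P), ι ((s ^ n) x) ((π ^ n) v) = ι x v := by
    intro n
    induction n with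
    | zero => intro x v; simp
    | succ n ih =>
      intro x v
      rw [pow_succ', pow_succ', Module.End.mul_apply, Equiv.Perm.mul_apply, heq, ih]
  have hziter : ∀ (n : ℕ) (v : P), z₀ ((π ^ n) v) = z₀ v := by
    intro n
    induction n with
    | zero => intro v; simp
    | succ n ih => intro v; rw [pow_succ', Equiv.Perm.mul_apply, hz, ih]
  -- the fixed space of `permEnd ℝ (π ^ m)` is everything
  have hfix : ∀ y : P → ℝ, permEnd ℝ (π ^ m) y = y := by
    have hle : Submodule.span ℝ (Set.range ι) ⊔ Submodule.span ℝ {z₀} ≤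
        LinearMap.ker (permEnd ℝ (π ^ m) - 1) := by
      rw [sup_le_iff, Submodule.span_le, Submodule.span_le]
      constructor
      · rintro _ ⟨x, rfl⟩
        rw [SetLike.mem_coe, LinearMap.mem_ker, LinearMap.sub_apply, sub_eq_zero]
        funext w
        obtain ⟨v, rfl⟩ := (π ^ m).surjective w
        rw [permEnd_apply_perm]
        have := hiter m x v
        rw [hs] at this
        exact this.symm
      · rintro _ rfl
        rw [SetLike.mem_coe, LinearMap.mem_ker, LinearMap.sub_apply, sub_eq_zero]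
        funext w
        obtain ⟨v, rfl⟩ := (π ^ m).surjective w
        rw [permEnd_apply_perm]
        exact (hziter m v).symm
    intro y
    have hy : y ∈ LinearMap.ker (permEnd ℝ (π ^ m) - 1) := hle (by rw [hspan]; trivial)
    rw [LinearMap.mem_ker, LinearMap.sub_apply, sub_eq_zero] at hy
    exact hy
  ext v
  have h1 := congrFun (hfix (Pi.single v 1)) ((π ^ m) v)
  rw [permEnd_apply_perm, Pi.single_eq_same] at h1
  by_contra hne
  rw [Pi.single_eq_of_ne (by simpa using hne)] at h1
  exact one_ne_zero h1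

end PermOrder

/-! ### The abstract theorem -/

section Main

variable (p : ℕ) [Fact p.Prime] {A : Type*} [AddCommGroup A] [Module.Finite ℤ A]
  {P : Type*} [Fintype P]

theorem baseChange_subtype_injective :
    Function.Injective ((Submodule.torsion ℤ A).subtype.baseChange (ZMod p)) := by
  obtain ⟨j, hj⟩ := Module.projective_lifting_property (Submodule.torsion ℤ A).mkQ
    (LinearMap.id : (A ⧸ Submodule.torsion ℤ A) →ₗ[ℤ] (A ⧸ Submodule.torsion ℤ A))
    (Submodule.mkQ_surjective _)
  let ρ : A →ₗ[ℤ] Submodule.torsion ℤ A :=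
    ((LinearMap.id : A →ₗ[ℤ] A) - j.comp (Submodule.torsion ℤ A).mkQ).codRestrict
      (Submodule.torsion ℤ A)
      (fun a => by
        have hk : ((LinearMap.id : A →ₗ[ℤ] A) - j.comp (Submodule.torsion ℤ A).mkQ) a ∈
            LinearMap.ker (Submodule.torsion ℤ A).mkQ := by
          rw [LinearMap.mem_ker, LinearMap.sub_apply, map_sub, LinearMap.id_apply,
            LinearMap.comp_apply]
          have := LinearMap.congr_fun hj ((Submodule.torsion ℤ A).mkQ a)
          rw [LinearMap.comp_apply, LinearMap.id_apply] at this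
          rw [this, sub_self]
        rwa [Submodule.ker_mkQ] at hk)
  have hρ : ρ.comp (Submodule.torsion ℤ A).subtype = LinearMap.id := by
    apply LinearMap.ext
    intro t
    apply Subtype.ext
    change (t : A) - j ((Submodule.torsion ℤ A).mkQ (t : A)) = t
    have : (Submodule.torsion ℤ A).mkQ (t : A) = 0 := by
      rw [← LinearMap.mem_ker, Submodule.ker_mkQ]; exact t.2
    rw [this, map_zero, sub_zero]
  have h := LinearMap.baseChange_comp (A := ZMod p) (Submodule.torsion ℤ A).subtype ρ
  rw [hρ, LinearMap.baseChange_id] at h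
  intro x y hxy
  have := congrArg (ρ.baseChange (ZMod p)) hxy
  rw [← LinearMap.comp_apply, ← LinearMap.comp_apply, ← h] at this
  exact this

omit [Module.Finite ℤ A] in
theorem baseChange_exact :
    LinearMap.range ((Submodule.torsion ℤ A).subtype.baseChange (ZMod p)) =
      LinearMap.ker ((Submodule.torsion ℤ A).mkQ.baseChange (ZMod p)) := by
  have hex : Function.Exact (Submodule.torsion ℤ A).subtype (Submodule.torsion ℤ A).mkQ := by
    rw [LinearMap.exact_iff, Submodule.ker_mkQ, Submodule.range_subtype]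
  have h := lTensor_exact (ZMod p) hex (Submodule.mkQ_surjective _)
  ext x
  rw [LinearMap.mem_range, LinearMap.mem_ker]
  have h1 := h x
  rw [← LinearMap.baseChange_eq_ltensor, ← LinearMap.baseChange_eq_ltensor] at h1
  rw [h1]
  rfl

theorem prodMap_one_pow_eq_one {V : Type*} [AddCommGroup V] [Module (ZMod p) V]
    {f : End (ZMod p) V} {m : ℕ} (hf : f ^ m = 1) :
    (f.prodMap (1 : End (ZMod p) (ZMod p))) ^ m = 1 := by
  have := map_pow (LinearMap.prodMapRingHom (ZMod p) V (ZMod p)) (f, (1 : End (ZMod p) (ZMod p))) m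
  rw [Prod.pow_mk, hf, one_pow] at this
  exact this.symm

theorem conj_prodMap_assoc {k : Type*} [Field k] {V₁ V₂ V₃ : Type*} [AddCommGroup V₁]
    [Module k V₁] [AddCommGroup V₂] [Module k V₂] [AddCommGroup V₃] [Module k V₃]
    (f₁ : End k V₁) (f₂ : End k V₂) (f₃ : End k V₃) :
    Conj ((f₁.prodMap f₂).prodMap f₃) (f₁.prodMap (f₂.prodMap f₃)) :=
  ⟨LinearEquiv.prodAssoc k V₁ V₂ V₃, fun x => by
    obtain ⟨⟨a, b⟩, c⟩ := x
    rfl⟩

/-- **Abstract Dirichlet-Herbrand mod `p`.** -/
theorem conj_baseChange (π : Equiv.Perm P) (s : A →ₗ[ℤ] A) {m : ℕ} (hm : ¬ p ∣ m)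
    (hs : s ^ m = 1) (ι : A →+ (P → ℝ)) (z₀ : P → ℝ) (hz : ∀ v, z₀ (π v) = z₀ v)
    (heq : ∀ x v, ι (s x) (π v) = ι x v) (hrank : finrank ℤ A + 1 = Fintype.card P)
    (hspan : Submodule.span ℝ (Set.range ι) ⊔ Submodule.span ℝ {z₀} = ⊤) :
    Conj ((s.baseChange (ZMod p)).prodMap (1 : End (ZMod p) (ZMod p)))
      (((sTors s).baseChange (ZMod p)).prodMap (permEnd (ZMod p) π)) := by
  classical
  have hmk : ((m : ℕ) : ZMod p) ≠ 0 := by
    rwa [Ne, ZMod.natCast_eq_zero_iff]
  have hπ : π ^ m = 1 := perm_pow_eq_one π s hs ι z₀ hz heq hspan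
  -- Step 1: split off the torsion
  have hss : Module.End.IsSemisimple (s.baseChange (ZMod p)) := by
    apply isSemisimple_of_pow_eq_one _ hmk
    rw [← LinearMap.baseChange_pow, hs, LinearMap.baseChange_one]
  have h1 : Conj (s.baseChange (ZMod p))
      (((sTors s).baseChange (ZMod p)).prodMap ((sFree s).baseChange (ZMod p))) := by
    refine conj_prodMap_of_exact hss _ _ ((Submodule.torsion ℤ A).subtype.baseChange (ZMod p))
      ((Submodule.torsion ℤ A).mkQ.baseChange (ZMod p)) (baseChange_subtype_injective p)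
      (LinearMap.baseChange_surjective _ (Submodule.mkQ_surjective _)) (baseChange_exact p) ?_ ?_
    · intro x
      rw [← LinearMap.comp_apply, ← LinearMap.comp_apply, ← LinearMap.baseChange_comp,
        ← LinearMap.baseChange_comp]
      rfl
    · intro x
      rw [← LinearMap.comp_apply, ← LinearMap.comp_apply, ← LinearMap.baseChange_comp,
        ← LinearMap.baseChange_comp]
      rfl
  -- Step 2: the free part
  have hcp : (sFree s).charpoly * (X - 1) = (permEnd ℤ π).charpoly := by
    apply charpoly_mul_X_sub_one_eq π (sFree s) (ιFree ι) z₀ hz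
    · intro y v
      obtain ⟨x, rfl⟩ := Submodule.Quotient.mk_surjective _ y
      rw [sFree_mk, ιFree_mk, ιFree_mk, heq]
    · rw [finrank_quotient_eq_of_le_torsion le_rfl, hrank]
    · rw [range_ιFree, hspan]
  have h2 : Conj (((sFree s).baseChange (ZMod p)).prodMap (1 : End (ZMod p) (ZMod p)))
      (permEnd (ZMod p) π) := by
    apply conj_of_charpoly_eq
    · apply isSemisimple_of_pow_eq_one _ hmk
      apply prodMap_one_pow_eq_one
      rw [← LinearMap.baseChange_pow, sFree_pow_eq_one s hs, LinearMap.baseChange_one]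
    · exact isSemisimple_of_pow_eq_one _ hmk (permEnd_pow_eq_one _ π hπ)
    · rw [LinearMap.charpoly_prodMap, LinearMap.charpoly_baseChange, LinearMap.charpoly_one,
        finrank_self, pow_one, ← charpoly_permEnd_map ℤ π (algebraMap ℤ (ZMod p)), ← hcp,
        Polynomial.map_mul, Polynomial.map_sub, Polynomial.map_X, Polynomial.map_one]
  -- Step 3: assemble
  have h3 : Conj ((s.baseChange (ZMod p)).prodMap (1 : End (ZMod p) (ZMod p)))
      ((((sTors s).baseChange (ZMod p)).prodMap ((sFree s).baseChange (ZMod p))).prodMap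
        (1 : End (ZMod p) (ZMod p))) :=
    h1.prodMap ⟨LinearEquiv.refl _ _, fun _ => rfl⟩
  have h4 : Conj (((sTors s).baseChange (ZMod p)).prodMap
      (((sFree s).baseChange (ZMod p)).prodMap (1 : End (ZMod p) (ZMod p))))
      (((sTors s).baseChange (ZMod p)).prodMap (permEnd (ZMod p) π)) :=
    Conj.prodMap ⟨LinearEquiv.refl _ _, fun _ => rfl⟩ h2
  exact (h3.trans (conj_prodMap_assoc _ _ _)).trans h4

end Main

end Fermat.Agent.TW.DirHerb5.AbstractDH
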