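/-
Programme TW (S56), brick C3-T4b (Dirichlet-Herbrand mod p), helper5.

**Dirichlet-Herbrand mod `p`.**  `F` a number field, `σ` an automorphism of `F` of finite order
`m` prime to `p`, `T` a finite `σ`-stable set of finite places, `U_T` the group of `T`-units.
Then, as `𝔽_p`-vector spaces with an endomorphism (i.e. as `𝔽_p[⟨σ⟩]`-modules),

  `(𝔽_p ⊗ U_T) × 𝔽_p  ≃  (𝔽_p ⊗ μ(F)) × 𝔽_p^(S_∞ ⊔ T)`

where `σ` acts on the right by permuting the places.
-/
import Mathlib
import Fermat.Agent.PT.GLOB.SUnitRank17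
import Fermat.Agent.TW.DirHerb5.AbstractDH
import Fermat.Agent.TW.DirHerb5.GaloisAction

set_option autoImplicit false

open NumberField NumberField.InfinitePlace IsDedekindDomain HeightOneSpectrum Module TensorProduct
open Fermat.Agent.PT.GLOB.SUnitRank17 Fermat.Agent.TW.DirHerb5.UnitsSpan
open Fermat.Agent.TW.DirHerb5.GaloisAction Fermat.Agent.TW.DirHerb5.AbstractDH
open Fermat.Agent.TW.DirHerb5.SemisimpleConj Fermat.Agent.TW.DirHerb5.LatticeCharpoly

namespace Fermat.Agent.TW.DirHerb5.Main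

variable {k : Type*} [Field k] (F : Type*) [Field F] [NumberField F] [Algebra k F]

/-- **Dirichlet-Herbrand mod `p`**, in the form of a `σ`-equivariant isomorphism. -/
theorem dirichlet_herbrand (p : ℕ) [Fact p.Prime] (σ : F ≃ₐ[k] F) {m : ℕ} (hm : ¬ p ∣ m)
    (hσ : σ ^ m = 1) (T : Set (HeightOneSpectrum (𝓞 F))) [Finite T]
    (hT : ∀ v ∈ T, smulP F σ v ∈ T) :
    Conj (((unitLin F σ T hT).baseChange (ZMod p)).prodMap (1 : End (ZMod p) (ZMod p)))
      (((sTors (unitLin F σ T hT)).baseChange (ZMod p)).prodMap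
        (permEnd (ZMod p) (placePerm F σ T hT))) := by
  classical
  have : Fintype T := Fintype.ofFinite T
  refine conj_baseChange p (placePerm F σ T hT) (unitLin F σ T hT) hm
    (unitLin_pow_eq_one F σ T hT hσ) (sLog F T) (zVec F T) (zVec_placePerm F σ T hT)
    (sLog_equivariant F σ T hT) ?_ (sLog_span F T)
  rw [finrank_sUnit_set, Fintype.card_sum, Nat.card_eq_fintype_card, NumberField.Units.rank]
  have : 0 < Fintype.card (InfinitePlace F) := Fintype.card_pos
  omega

end Fermat.Agent.TW.DirHerb5.Main
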