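/-
Programme TW (S56), brick C3-T4b (Dirichlet-Herbrand mod p), helper5.  Adapter (A): the torsion
part.  If `ζ ∈ F` is a primitive `p`-th root of unity and `σ ζ = ζ ^ a`, then `σ` acts on the
one-dimensional space `𝔽_p ⊗ tors(U_T)` by the scalar `a`.
-/
import Mathlib
import Fermat.Agent.TW.DirHerb5.Main

set_option autoImplicit false
set_option linter.unusedSectionVars false

open Module TensorProduct
open Fermat.Agent.TW.DirHerb5.SemisimpleConj

namespace Fermat.Agent.TW.DirHerb5.AdaptersTorsion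

/-! ### Finite cyclic groups mod `p` -/

section Cyclic

variable (p : ℕ) [Fact p.Prime] {B : Type*} [AddCommGroup B]

/-- Every element of `ZMod p ⊗[ℤ] B` is a pure tensor `1 ⊗ b`. -/
theorem exists_one_tmul5 (x : ZMod p ⊗[ℤ] B) : ∃ b : B, x = (1 : ZMod p) ⊗ₜ[ℤ] b := by
  induction x using TensorProduct.induction_on with
  | zero => exact ⟨0, (TensorProduct.tmul_zero _ _).symm⟩
  | tmul r b =>
    refine ⟨(r.val : ℤ) • b, ?_⟩
    rw [TensorProduct.tmul_smul, TensorProduct.smul_tmul']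
    congr 1
    rw [zsmul_eq_mul, mul_one, Int.cast_natCast, ZMod.natCast_zmod_val]
  | add x y hx hy =>
    obtain ⟨b, rfl⟩ := hx
    obtain ⟨b', rfl⟩ := hy
    exact ⟨b + b', (TensorProduct.tmul_add _ _ _).symm⟩

/-- A finite cyclic group `B` with an endomorphism `s` acting on an element `z` of order `p` by
`s z = a • z`: then `s ⊗ 𝔽_p` is conjugate to multiplication by `a` on `𝔽_p`. -/
theorem conj_baseChange_of_cyclic [IsAddCyclic B] [Finite B] (s : B →ₗ[ℤ] B) (z : B)
    (hz : addOrderOf z = p) (a : ℕ) (hsz : s z = a • z) :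
    Conj (s.baseChange (ZMod p)) ((a : ZMod p) • (1 : End (ZMod p) (ZMod p))) := by
  have hpw : p ∣ Nat.card B := hz ▸ addOrderOf_dvd_natCard z
  obtain ⟨ξ, hξ⟩ := IsAddCyclic.exists_generator (α := B)
  let e₀ : ZMod (Nat.card B) ≃+ B := zmodAddEquivOfGenerator hξ rfl
  -- the functional `φ : B → ZMod p` with `φ ξ = 1`
  let φ : B →+ ZMod p := (ZMod.castHom hpw (ZMod p)).toAddMonoidHom.comp e₀.symm.toAddMonoidHom
  have hφξ : φ ξ = 1 := by
    change ZMod.castHom hpw (ZMod p) (e₀.symm ξ) = 1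
    rw [zmodAddEquivOfGenerator_symm_apply_generator, map_one]
  have hgen : ∀ x : B, ∃ n : ℤ, x = n • ξ := fun x => by
    obtain ⟨n, hn⟩ := AddSubgroup.mem_zmultiples_iff.mp (hξ x)
    exact ⟨n, hn.symm⟩
  -- `s` is multiplication by an integer `c`, and `c ≡ a mod p`
  obtain ⟨c, hc⟩ := hgen (s ξ)
  have hs : ∀ x : B, s x = c • x := fun x => by
    obtain ⟨n, rfl⟩ := hgen x
    rw [map_zsmul, hc, smul_comm]
  have hca : ((c : ℤ) : ZMod p) = (a : ZMod p) := by
    have h1 : (c - (a : ℤ)) • z = 0 := by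
      rw [sub_smul, ← hs, hsz, natCast_zsmul, sub_self]
    have h2 : ((addOrderOf z : ℕ) : ℤ) ∣ c - (a : ℤ) :=
      addOrderOf_dvd_iff_zsmul_eq_zero.mpr h1
    rw [hz] at h2
    have h3 : ((c - (a : ℤ) : ℤ) : ZMod p) = 0 := (ZMod.intCast_zmod_eq_zero_iff_dvd _ p).mpr h2
    rw [Int.cast_sub, Int.cast_natCast, sub_eq_zero] at h3
    exact h3
  -- the linear functional on the tensor product
  let Φ : ZMod p ⊗[ℤ] B →ₗ[ZMod p] ZMod p := LinearMap.liftBaseChange (ZMod p) φ.toIntLinearMap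
  have hΦ : ∀ (r : ZMod p) (x : B), Φ (r ⊗ₜ[ℤ] x) = r * φ x := fun r x => rfl
  have hφn : ∀ n : ℤ, φ (n • ξ) = (n : ZMod p) := fun n => by
    rw [map_zsmul, hφξ, zsmul_eq_mul, mul_one]
  have hinj : Function.Injective Φ := by
    rw [← LinearMap.ker_eq_bot, LinearMap.ker_eq_bot']
    intro y hy
    obtain ⟨x, rfl⟩ := exists_one_tmul5 p y
    obtain ⟨n, rfl⟩ := hgen x
    rw [hΦ, one_mul, hφn] at hy
    rw [TensorProduct.tmul_smul, TensorProduct.smul_tmul', zsmul_eq_mul, mul_one, hy,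
      TensorProduct.zero_tmul]
  have hsurj : Function.Surjective Φ := fun r => ⟨r ⊗ₜ[ℤ] ξ, by rw [hΦ, hφξ, mul_one]⟩
  refine ⟨LinearEquiv.ofBijective Φ ⟨hinj, hsurj⟩, fun y => ?_⟩
  change Φ (s.baseChange (ZMod p) y) = (a : ZMod p) • Φ y
  obtain ⟨x, rfl⟩ := exists_one_tmul5 p y
  rw [LinearMap.baseChange_tmul, hΦ, hΦ, one_mul, one_mul, hs, map_zsmul, zsmul_eq_mul, hca,
    smul_eq_mul]

end Cyclic

/-! ### The torsion of the `T`-units -/

section NumberField

open NumberField IsDedekindDomain HeightOneSpectrum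
open Fermat.Agent.TW.DirHerb5.GaloisAction Fermat.Agent.TW.DirHerb5.AbstractDH
open Fermat.Agent.PT.GLOB.SUnitRank17

instance finite_torsion5 {A : Type*} [AddCommGroup A] [Module.Finite ℤ A] :
    Finite (Submodule.torsion ℤ A) :=
  Module.finite_of_fg_torsion _ Submodule.torsion_isTorsion

variable {k : Type*} [Field k] (F : Type*) [Field F] [NumberField F] [Algebra k F]
variable (T : Set (HeightOneSpectrum (𝓞 F)))

/-- The (injective) evaluation map from the torsion of the `T`-units to `F`. -/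
noncomputable def torsToF :
    Multiplicative (Submodule.torsion ℤ (Additive (T.unit F))) →* F :=
  (((Units.coeHom F).comp (T.unit F).subtype).comp
    (MulEquiv.multiplicativeAdditive (T.unit F)).toMonoidHom).comp
      (AddMonoidHom.toMultiplicative
        (Submodule.torsion ℤ (Additive (T.unit F))).subtype.toAddMonoidHom)

theorem torsToF_apply (x : Multiplicative (Submodule.torsion ℤ (Additive (T.unit F)))) :
    torsToF F T x = ((((Multiplicative.toAdd x).1.toMul : T.unit F) : Fˣ) : F) := rfl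

theorem torsToF_injective : Function.Injective (torsToF F T) := by
  intro x y h
  rw [torsToF_apply, torsToF_apply] at h
  apply Multiplicative.toAdd.injective
  apply Subtype.ext
  apply Additive.toMul.injective
  apply Subtype.ext
  exact Units.ext h

instance isAddCyclic_torsion5 [Finite T] :
    IsAddCyclic (Submodule.torsion ℤ (Additive (T.unit F))) := by
  rw [← isCyclic_multiplicative_iff]
  exact isCyclic_of_injective_ringHom (torsToF F T) (torsToF_injective F T)

theorem valuation_eq_one_of_pow_eq_one (v : HeightOneSpectrum (𝓞 F)) {x : F} {n : ℕ}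
    (hn : n ≠ 0) (hx : x ^ n = 1) : v.valuation F x = 1 := by
  have h : (v.valuation F x) ^ n = 1 := by rw [← map_pow, hx, map_one]
  exact (pow_eq_one_iff_of_nonneg zero_le hn).mp h

/-- **Adapter (A).** -/
theorem conj_sTors_baseChange (p : ℕ) [Fact p.Prime] (σ : F ≃ₐ[k] F) [Finite T]
    (hT : ∀ v ∈ T, smulP F σ v ∈ T) {ζ : F} (hζ : IsPrimitiveRoot ζ p) (a : ℕ)
    (ha : σ ζ = ζ ^ a) :
    Conj ((sTors (unitLin F σ T hT)).baseChange (ZMod p))
      ((a : ZMod p) • (1 : End (ZMod p) (ZMod p))) := by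
  have hp0 : p ≠ 0 := (Fact.out : p.Prime).ne_zero
  have hζ0 : ζ ≠ 0 := hζ.ne_zero hp0
  -- `ζ` as a `T`-unit
  let ζu : T.unit F := ⟨Units.mk0 ζ hζ0, fun v _ =>
    valuation_eq_one_of_pow_eq_one F v hp0 hζ.pow_eq_one⟩
  have hζu : ((ζu : Fˣ) : F) = ζ := rfl
  have hpζ : (p : ℤ) • (Additive.ofMul ζu : Additive (T.unit F)) = 0 := by
    rw [natCast_zsmul]
    apply Additive.toMul.injective
    apply Subtype.ext
    apply Units.ext
    change (((ζu ^ p : T.unit F) : Fˣ) : F) = 1
    rw [Subgroup.coe_pow, Units.val_pow_eq_pow_val, hζu, hζ.pow_eq_one]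
  let z : Submodule.torsion ℤ (Additive (T.unit F)) :=
    ⟨Additive.ofMul ζu, (Submodule.mem_torsion_iff _).mpr
      ⟨⟨(p : ℤ), mem_nonZeroDivisors_of_ne_zero (by exact_mod_cast hp0)⟩, hpζ⟩⟩
  have hzF : torsToF F T (Multiplicative.ofAdd z) = ζ := rfl
  have hz : addOrderOf z = p := by
    rw [← orderOf_ofAdd_eq_addOrderOf, ← orderOf_injective (torsToF F T) (torsToF_injective F T),
      hzF, ← hζ.eq_orderOf]
  refine conj_baseChange_of_cyclic p (sTors (unitLin F σ T hT)) z hz a ?_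
  apply Multiplicative.ofAdd.injective
  apply torsToF_injective F T
  rw [torsToF_apply, torsToF_apply]
  change σ ζ = _
  rw [ha]
  change ζ ^ a = ((((a • z : Submodule.torsion ℤ (Additive (T.unit F))).1.toMul : T.unit F) : Fˣ) : F)
  rw [Submodule.coe_smul_of_tower]
  change ζ ^ a = (((ζu ^ a : T.unit F) : Fˣ) : F)
  rw [Subgroup.coe_pow, Units.val_pow_eq_pow_val, hζu]

end NumberField

end Fermat.Agent.TW.DirHerb5.AdaptersTorsion
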