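/-
Programme TW (S56), brick C3-T4b (Dirichlet-Herbrand mod p), helper5.  Adapter (C): the
Dirichlet-Herbrand theorem in "hom form":

  `hom a u + dim ker (a - 1) = dim ker (a - ω) + dim {x : S_∞ ⊔ T → N | x (σ v) = a (x v)}`

for every finite-dimensional `𝔽_p`-space `N` with an endomorphism `a`, where `u` is the action of
`σ` on `𝔽_p ⊗ U_T` and `ω` the exponent of `σ` on a primitive `p`-th root of unity; and splitting
lemmas for the last term.
-/
import Mathlib
import Fermat.Agent.TW.DirHerb5.Main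
import Fermat.Agent.TW.DirHerb5.AdaptersTorsion
import Fermat.Agent.TW.DirHerb5.HomCalc

set_option autoImplicit false
set_option linter.unusedSectionVars false

open NumberField NumberField.InfinitePlace IsDedekindDomain HeightOneSpectrum Module TensorProduct
open Fermat.Agent.TW.DirHerb5.GaloisAction Fermat.Agent.TW.DirHerb5.AbstractDH
open Fermat.Agent.TW.DirHerb5.SemisimpleConj Fermat.Agent.TW.DirHerb5.LatticeCharpoly
open Fermat.Agent.TW.DirHerb5.HomCalc Fermat.Agent.TW.DirHerb5.AdaptersTorsion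

namespace Fermat.Agent.TW.DirHerb5.AdaptersHom

/-! ### Splitting `twFix` -/

section Split

variable {k : Type*} [Field k] {N : Type*} [AddCommGroup N] [Module k N]

/-- `twFix` over a disjoint sum is the product. -/
def twFixSum {P₁ P₂ : Type*} (π₁ : Equiv.Perm P₁) (π₂ : Equiv.Perm P₂) (a : End k N) :
    twFix (Equiv.sumCongr π₁ π₂) a ≃ₗ[k] (twFix π₁ a × twFix π₂ a) where
  toFun x := (⟨fun v => x.1 (Sum.inl v), fun v => x.2 (Sum.inl v)⟩,
    ⟨fun v => x.1 (Sum.inr v), fun v => x.2 (Sum.inr v)⟩)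
  invFun y := ⟨Sum.elim y.1.1 y.2.1, fun v => by
    rcases v with v | v
    · exact y.1.2 v
    · exact y.2.2 v⟩
  map_add' x y := rfl
  map_smul' c x := rfl
  left_inv x := by
    apply Subtype.ext
    funext v
    rcases v with v | v <;> rfl
  right_inv y := rfl

theorem finrank_twFix_sum [FiniteDimensional k N] {P₁ P₂ : Type*} [Finite P₁] [Finite P₂]
    (π₁ : Equiv.Perm P₁) (π₂ : Equiv.Perm P₂) (a : End k N) :
    finrank k (twFix (Equiv.sumCongr π₁ π₂) a) =
      finrank k (twFix π₁ a) + finrank k (twFix π₂ a) := by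
  rw [LinearEquiv.finrank_eq (twFixSum π₁ π₂ a), Module.finrank_prod]

/-- `twFix` over a disjoint union of stable pieces is the product. -/
def twFixSigma {P : Type*} (π : Equiv.Perm P) {I : Type*} {Q : I → Type*}
    (ρ : ∀ i, Equiv.Perm (Q i)) (ε : P ≃ Σ i, Q i)
    (hε : ∀ v, ε (π v) = ⟨(ε v).1, ρ (ε v).1 (ε v).2⟩) (a : End k N) :
    twFix π a ≃ₗ[k] (∀ i, twFix (ρ i) a) where
  toFun x i := ⟨fun w => x.1 (ε.symm ⟨i, w⟩), fun w => by
    have h1 : ε.symm ⟨i, ρ i w⟩ = π (ε.symm ⟨i, w⟩) := by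
      apply ε.injective
      rw [Equiv.apply_symm_apply, hε, Equiv.apply_symm_apply]
    change x.1 (ε.symm ⟨i, ρ i w⟩) = a (x.1 (ε.symm ⟨i, w⟩))
    rw [h1]
    exact x.2 _⟩
  invFun y := ⟨fun v => (y (ε v).1).1 (ε v).2, fun v => by
    change (y (ε (π v)).1).1 (ε (π v)).2 = a ((y (ε v).1).1 (ε v).2)
    rw [hε v]
    exact (y (ε v).1).2 _⟩
  map_add' x y := rfl
  map_smul' c x := rfl
  left_inv x := by
    apply Subtype.ext
    funext v
    change x.1 (ε.symm ⟨(ε v).1, (ε v).2⟩) = x.1 v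
    rw [Sigma.eta, Equiv.symm_apply_apply]
  right_inv y := by
    funext i
    apply Subtype.ext
    funext w
    change (y (ε (ε.symm ⟨i, w⟩)).1).1 (ε (ε.symm ⟨i, w⟩)).2 = (y i).1 w
    rw [Equiv.apply_symm_apply]

theorem finrank_twFix_sigma [FiniteDimensional k N] {P : Type*} (π : Equiv.Perm P) {I : Type*}
    [Fintype I] {Q : I → Type*} [∀ i, Finite (Q i)] (ρ : ∀ i, Equiv.Perm (Q i))
    (ε : P ≃ Σ i, Q i) (hε : ∀ v, ε (π v) = ⟨(ε v).1, ρ (ε v).1 (ε v).2⟩) (a : End k N) :
    finrank k (twFix π a) = ∑ i, finrank k (twFix (ρ i) a) := by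
  rw [LinearEquiv.finrank_eq (twFixSigma π ρ ε hε a), Module.finrank_pi_fintype]

end Split

/-! ### The hom form of Dirichlet-Herbrand -/

section Main

variable {k : Type*} [Field k] (F : Type*) [Field F] [NumberField F] [Algebra k F]

/-- **Adapter (C): Dirichlet-Herbrand in hom form.** -/
theorem hom_formula (p : ℕ) [Fact p.Prime] (σ : F ≃ₐ[k] F) {m : ℕ} (hm : ¬ p ∣ m)
    (hσ : σ ^ m = 1) (T : Set (HeightOneSpectrum (𝓞 F))) [Finite T]
    (hT : ∀ v ∈ T, smulP F σ v ∈ T) {ζ : F} (hζ : IsPrimitiveRoot ζ p) (ω : ℕ)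
    (hω : σ ζ = ζ ^ ω) {N : Type*} [AddCommGroup N] [Module (ZMod p) N]
    [FiniteDimensional (ZMod p) N] (a : End (ZMod p) N) :
    hom a ((unitLin F σ T hT).baseChange (ZMod p)) +
        finrank (ZMod p) (LinearMap.ker (a - 1)) =
      finrank (ZMod p) (LinearMap.ker (a - (ω : ZMod p) • (1 : End (ZMod p) N))) +
        finrank (ZMod p) (twFix (placePerm F σ T hT) a) := by
  classical
  have : Fintype T := Fintype.ofFinite T
  have h1 := hom_eq_of_conj a (Main.dirichlet_herbrand F p σ hm hσ T hT)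
  rw [hom_prodMap, hom_prodMap, hom_one, hom_permEnd,
    hom_eq_of_conj a (conj_sTors_baseChange F T p σ hT hζ ω hω), hom_smul_one] at h1
  exact h1

/-- The last term splits into the archimedean and the finite part. -/
theorem finrank_twFix_placePerm (σ : F ≃ₐ[k] F) (T : Set (HeightOneSpectrum (𝓞 F))) [Finite T]
    (hT : ∀ v ∈ T, smulP F σ v ∈ T) {K : Type*} [Field K] {N : Type*} [AddCommGroup N]
    [Module K N] [FiniteDimensional K N] (a : End K N) :
    finrank K (twFix (placePerm F σ T hT) a) =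
      finrank K (twFix (MulAction.toPerm σ : Equiv.Perm (InfinitePlace F)) a) +
        finrank K (twFix (Equiv.ofBijective _ (placeMapT_bijective F σ T hT)) a) :=
  finrank_twFix_sum _ _ a

end Main

end Fermat.Agent.TW.DirHerb5.AdaptersHom
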