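/-
Programme TW (S56), brick C3-T4b (Dirichlet-Herbrand mod p), helper5.

Group form of Dirichlet-Herbrand: the isomorphism of `Main.dirichlet_herbrand` is equivariant for
every element of the cyclic group generated by `σ`.
-/
import Mathlib
import Fermat.Agent.TW.DirHerb5.Main

set_option autoImplicit false
set_option linter.unusedSectionVars false

open NumberField NumberField.InfinitePlace IsDedekindDomain HeightOneSpectrum Module TensorProduct
open Fermat.Agent.PT.GLOB.SUnitRank17 Fermat.Agent.TW.DirHerb5.UnitsSpan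
open Fermat.Agent.TW.DirHerb5.GaloisAction Fermat.Agent.TW.DirHerb5.AbstractDH
open Fermat.Agent.TW.DirHerb5.SemisimpleConj Fermat.Agent.TW.DirHerb5.LatticeCharpoly

namespace Fermat.Agent.TW.DirHerb5.GroupForm

variable {k : Type*} [Field k] (F : Type*) [Field F] [NumberField F] [Algebra k F]

section Functoriality

variable (σ : F ≃ₐ[k] F) (T : Set (HeightOneSpectrum (𝓞 F)))

theorem stable_pow (hT : ∀ v ∈ T, smulP F σ v ∈ T) (j : ℕ) :
    ∀ v ∈ T, smulP F (σ ^ j) v ∈ T := by
  induction j with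
  | zero => intro v hv; rwa [pow_zero, smulP_one]
  | succ j ih =>
    intro v hv
    rw [pow_succ', ← smulP_smulP]
    exact hT _ (ih v hv)

theorem unitLin_pow (hT : ∀ v ∈ T, smulP F σ v ∈ T) (j : ℕ)
    (hT' : ∀ v ∈ T, smulP F (σ ^ j) v ∈ T) :
    unitLin F (σ ^ j) T hT' = unitLin F σ T hT ^ j := by
  apply LinearMap.ext
  intro x
  apply Additive.toMul.injective
  apply Subtype.ext
  apply Units.ext
  rw [coe_unitLin_pow]
  rfl

theorem placePerm_congr [Finite T] {σ τ : F ≃ₐ[k] F} (h : σ = τ)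
    (hσ : ∀ v ∈ T, smulP F σ v ∈ T) (hτ : ∀ v ∈ T, smulP F τ v ∈ T) :
    placePerm F σ T hσ = placePerm F τ T hτ := by
  subst h
  rfl

theorem placePerm_one [Finite T] (h1 : ∀ v ∈ T, smulP F (1 : F ≃ₐ[k] F) v ∈ T) :
    placePerm F (1 : F ≃ₐ[k] F) T h1 = 1 := by
  ext i
  rcases i with w | v
  · rw [placePerm_inl, one_smul]
    rfl
  · rw [placePerm_inr]
    exact congrArg Sum.inr (Subtype.ext (smulP_one F v.1))

theorem placePerm_mul [Finite T] (σ τ : F ≃ₐ[k] F) (hσ : ∀ v ∈ T, smulP F σ v ∈ T)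
    (hτ : ∀ v ∈ T, smulP F τ v ∈ T) (hστ : ∀ v ∈ T, smulP F (σ * τ) v ∈ T) :
    placePerm F (σ * τ) T hστ = placePerm F σ T hσ * placePerm F τ T hτ := by
  ext i
  rcases i with w | v
  · rw [Equiv.Perm.mul_apply, placePerm_inl, placePerm_inl, placePerm_inl, mul_smul]
  · rw [Equiv.Perm.mul_apply, placePerm_inr, placePerm_inr, placePerm_inr]
    exact congrArg Sum.inr (Subtype.ext (smulP_smulP F σ τ v.1).symm)

theorem placePerm_pow [Finite T] (hT : ∀ v ∈ T, smulP F σ v ∈ T) (j : ℕ)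
    (hT' : ∀ v ∈ T, smulP F (σ ^ j) v ∈ T) :
    placePerm F (σ ^ j) T hT' = placePerm F σ T hT ^ j := by
  induction j with
  | zero =>
    have h1 : ∀ v ∈ T, smulP F (1 : F ≃ₐ[k] F) v ∈ T := fun v hv => by rwa [smulP_one]
    rw [placePerm_congr F T (pow_zero σ) hT' h1, placePerm_one, pow_zero]
  | succ j ih =>
    have h2 : ∀ v ∈ T, smulP F (σ * σ ^ j) v ∈ T := fun v hv => by
      rw [← pow_succ']; exact hT' v hv
    rw [placePerm_congr F T (pow_succ' σ j) hT' h2,
      placePerm_mul F T σ (σ ^ j) hT (stable_pow F σ T hT j) h2, ih, pow_succ']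

end Functoriality

section SPow

variable {A : Type*} [AddCommGroup A] (s : A →ₗ[ℤ] A)

theorem sTors_pow (j : ℕ) : sTors (s ^ j) = sTors s ^ j := by
  apply LinearMap.ext
  intro x
  apply Subtype.ext
  rw [sTors_pow_coe]
  rfl

end SPow

/-- If `e` intertwines `f` and `g`, it intertwines their powers. -/
theorem intertwine_pow {R : Type*} [Semiring R] {V W : Type*} [AddCommMonoid V] [Module R V]
    [AddCommMonoid W] [Module R W] (e : V ≃ₗ[R] W) (f : End R V) (g : End R W)
    (h : ∀ x, e (f x) = g (e x)) (j : ℕ) : ∀ x, e ((f ^ j) x) = (g ^ j) (e x) := by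
  induction j with
  | zero => intro x; simp
  | succ j ih =>
    intro x
    rw [pow_succ', pow_succ', Module.End.mul_apply, Module.End.mul_apply, h, ih]

theorem prodMap_pow' {R : Type*} [CommSemiring R] {V W : Type*} [AddCommMonoid V] [Module R V]
    [AddCommMonoid W] [Module R W] (f : End R V) (g : End R W) (j : ℕ) :
    (f.prodMap g) ^ j = (f ^ j).prodMap (g ^ j) := by
  have := map_pow (LinearMap.prodMapRingHom R V W) (f, g) j
  rw [Prod.pow_mk] at this
  exact this.symm

/-- **Dirichlet-Herbrand mod `p`, group form**: one isomorphism, equivariant for every element of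
the cyclic group generated by `σ`. -/
theorem dirichlet_herbrand_zpowers (p : ℕ) [Fact p.Prime] (σ : F ≃ₐ[k] F) {m : ℕ} (hm : ¬ p ∣ m)
    (hσ : σ ^ m = 1) (T : Set (HeightOneSpectrum (𝓞 F))) [Finite T]
    (hT : ∀ v ∈ T, smulP F σ v ∈ T) :
    ∃ e : ((ZMod p ⊗[ℤ] Additive (T.unit F)) × ZMod p) ≃ₗ[ZMod p]
        ((ZMod p ⊗[ℤ] Submodule.torsion ℤ (Additive (T.unit F))) ×
          (InfinitePlace F ⊕ T → ZMod p)),
      ∀ (τ : F ≃ₐ[k] F), τ ∈ Subgroup.zpowers σ → ∀ (hτ : ∀ v ∈ T, smulP F τ v ∈ T) x,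
        e ((((unitLin F τ T hτ).baseChange (ZMod p)).prodMap (1 : End (ZMod p) (ZMod p))) x) =
          (((sTors (unitLin F τ T hτ)).baseChange (ZMod p)).prodMap
            (permEnd (ZMod p) (placePerm F τ T hτ))) (e x) := by
  obtain ⟨e, he⟩ := Main.dirichlet_herbrand F p σ hm hσ T hT
  refine ⟨e, fun τ hτmem hτ x => ?_⟩
  have hm0 : 0 < m := by
    rcases Nat.eq_zero_or_pos m with h | h
    · exact absurd (h ▸ dvd_zero p) hm
    · exact h
  have hfin : IsOfFinOrder σ := isOfFinOrder_iff_pow_eq_one.mpr ⟨m, hm0, hσ⟩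
  obtain ⟨j, rfl⟩ := (hfin.mem_powers_iff_mem_zpowers).mpr hτmem
  have h1 := intertwine_pow e _ _ he j x
  rw [prodMap_pow', prodMap_pow', one_pow, ← LinearMap.baseChange_pow,
    ← LinearMap.baseChange_pow, ← permEnd_pow, ← sTors_pow,
    ← unitLin_pow F σ T hT j hτ, ← placePerm_pow F σ T hT j hτ] at h1
  exact h1

end Fermat.Agent.TW.DirHerb5.GroupForm
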